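import Fermat.Agent.Row27.Cube.Spaces

/-!
# Bases of spaces, complements, congruences modulo a subspace
-/

set_option autoImplicit false

noncomputable section

open AlgebraicCurve Module Matrix

namespace Fermat.Agent.Row27

section Linear

variable {L V : Type*} [Field L] [AddCommGroup V] [Module L V] {ν ν₁ ν₂ : Type*}

/-- An independent family in `W` with `dim W` members. -/
structure IsBas [Fintype ν] (W : Submodule L V) (U : ν → V) : Prop where
  mem : ∀ i, U i ∈ W
  li : LinearIndependent L U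
  card : Fintype.card ν = finrank L W

variable {W P : Submodule L V}

lemma IsBas.span_eq [FiniteDimensional L V] [Fintype ν] {U : ν → V} (h : IsBas W U) :
    Submodule.span L (Set.range U) = W :=
  Submodule.eq_of_le_of_finrank_le (Submodule.span_le.mpr (Set.range_subset_iff.mpr h.mem))
    (by rw [finrank_span_eq_card h.li, h.card])

lemma IsBas.exists_sum_eq [FiniteDimensional L V] [Fintype ν] {U : ν → V} (h : IsBas W U) {y : V}
    (hy : y ∈ W) : ∃ c : ν → L, ∑ i, c i • U i = y :=
  (Submodule.mem_span_range_iff_exists_fun L).mp (h.span_eq.symm ▸ hy)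

lemma exists_isBas [FiniteDimensional L V] (W : Submodule L V) :
    ∃ U : Fin (finrank L W) → V, IsBas W U :=
  ⟨fun i => (Module.finBasis L W i : V), fun i => (Module.finBasis L W i).2,
    (Module.finBasis L W).linearIndependent.map' W.subtype (Submodule.ker_subtype W), by simp⟩

/-- Complete a basis of `P` to one of `W`. -/
lemma IsBas.exists_extend [FiniteDimensional L V] [Fintype ν] {U : ν → V} (h : IsBas P U)
    (hPW : P ≤ W) {m : ℕ} (hm : finrank L P + m = finrank L W) :
    ∃ z : Fin m → V, (∀ i, z i ∈ W) ∧ IsBas W (Sum.elim U z) := by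
  obtain ⟨R, hR⟩ := Submodule.exists_isCompl (P.comap W.subtype)
  have e : finrank L (P.comap W.subtype) = finrank L P :=
    (Submodule.comapSubtypeEquivOfLe hPW).finrank_eq
  have hRm : finrank L R = m := by
    have := Submodule.finrank_add_eq_of_isCompl hR
    omega
  set b := Module.finBasisOfFinrankEq L R hRm
  refine ⟨fun i => ((b i : W) : V), fun i => (b i : W).2, ?_, ?_, ?_⟩
  · rintro (i | i)
    · exact hPW (h.mem i)
    · exact (b i : W).2
  · refine linearIndependent_sum.mpr ⟨h.li,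
      b.linearIndependent.map' (W.subtype ∘ₗ R.subtype) ?_, ?_⟩
    · rw [LinearMap.ker_eq_bot]
      exact Subtype.val_injective.comp Subtype.val_injective
    · rw [Submodule.disjoint_def]
      intro y hy1 hy2
      simp only [Sum.elim_comp_inl, Sum.elim_comp_inr] at hy1 hy2
      rw [h.span_eq] at hy1
      have hy2' : ∃ r : W, r ∈ R ∧ (r : V) = y := by
        obtain ⟨c, rfl⟩ := (Submodule.mem_span_range_iff_exists_fun L).mp hy2
        exact ⟨(∑ i, c i • b i : R), SetLike.coe_mem _, by simp⟩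
      obtain ⟨r, hr, rfl⟩ := hy2'
      have h0 : r ∈ P.comap W.subtype ⊓ R := ⟨hy1, hr⟩
      rw [hR.inf_eq_bot, Submodule.mem_bot] at h0
      simp [h0]
  · rw [Fintype.card_sum, h.card, Fintype.card_fin, hm]

lemma IsBas.exists_matrix [FiniteDimensional L V] [Fintype ν] {U : ν → V} (h : IsBas W U)
    (U' : ν₁ → V) (hU' : ∀ i, U' i ∈ W) :
    ∃ T : Matrix ν₁ ν L, ∀ i, U' i = ∑ j, T i j • U j := by
  choose T hT using fun i => h.exists_sum_eq (hU' i)
  exact ⟨T, fun i => (hT i).symm⟩

lemma det_ne_zero_of_li [Fintype ν] [DecidableEq ν] {U U' : ν → V} {T : Matrix ν ν L}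
    (hT : ∀ i, U' i = ∑ j, T i j • U j) (h : LinearIndependent L U') : T.det ≠ 0 := by
  rw [← isUnit_iff_ne_zero, ← Matrix.isUnit_iff_isUnit_det,
    ← Matrix.linearIndependent_rows_iff_isUnit, Fintype.linearIndependent_iff]
  intro c hc
  refine Fintype.linearIndependent_iff.mp h c ?_
  simp only [hT, Finset.smul_sum, smul_smul]
  rw [Finset.sum_comm]
  refine Finset.sum_eq_zero fun j _ => ?_
  rw [← Finset.sum_smul]
  have := congrFun hc j
  simp only [Finset.sum_apply, Pi.smul_apply, smul_eq_mul, Pi.zero_apply] at this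
  rw [show ∑ i, c i * T i j = 0 from this, zero_smul]

/-- `z ≡ Q z'` modulo `P`. -/
def Cong [Fintype ν₂] (P : Submodule L V) (Q : Matrix ν₁ ν₂ L) (z : ν₁ → V) (z' : ν₂ → V) : Prop :=
  ∀ i, z i - ∑ j, Q i j • z' j ∈ P

lemma Cong.trans [Fintype ν] [Fintype ν₂] {z : ν₁ → V} {z' : ν → V} {z'' : ν₂ → V}
    {Q : Matrix ν₁ ν L} {Q' : Matrix ν ν₂ L} (h : Cong P Q z z') (h' : Cong P Q' z' z'') :
    Cong P (Q * Q') z z'' := fun i => by
  have e : z i - ∑ k, (Q * Q') i k • z'' k =
      (z i - ∑ j, Q i j • z' j) + ∑ j, Q i j • (z' j - ∑ k, Q' j k • z'' k) := by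
    simp only [smul_sub, Finset.sum_sub_distrib, Finset.smul_sum, smul_smul, Matrix.mul_apply,
      Finset.sum_smul]
    rw [Finset.sum_comm]
    abel
  rw [e]
  exact add_mem (h i) (Submodule.sum_mem _ fun j _ => Submodule.smul_mem _ _ (h' j))

lemma Cong.map [Fintype ν₂] {V' : Type*} [AddCommGroup V'] [Module L V'] {P' : Submodule L V'}
    {z : ν₁ → V} {z' : ν₂ → V} {Q : Matrix ν₁ ν₂ L} (h : Cong P Q z z') (f : V →ₗ[L] V')
    (hf : ∀ y ∈ P, f y ∈ P') : Cong P' Q (fun i => f (z i)) (fun j => f (z' j)) := fun i => by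
  simpa [map_sub, map_sum, map_smul] using hf _ (h i)

lemma exists_cong [FiniteDimensional L V] [Fintype ν] [Fintype ν₂] {U : ν → V} {z' : ν₂ → V}
    (hU : ∀ i, U i ∈ P) (h : IsBas W (Sum.elim U z')) (z : ν₁ → V) (hz : ∀ i, z i ∈ W) :
    ∃ Q : Matrix ν₁ ν₂ L, Cong P Q z z' := by
  obtain ⟨T, hT⟩ := h.exists_matrix z hz
  refine ⟨fun i j => T i (Sum.inr j), fun i => ?_⟩
  rw [hT i, Fintype.sum_sum_type]
  simp only [Sum.elim_inl, Sum.elim_inr, add_sub_cancel_right]
  exact Submodule.sum_mem _ fun j _ => Submodule.smul_mem _ _ (hU j)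

end Linear

universe u

variable {K : Type u} [Field K] (C : CurveData K) (L : Type u) [Field L] [Algebra K L]
  [IsAlgClosed L]

/-- Multiplication by an exact function turns a complement into a complement. -/
theorem CurveData.isBas_step {ν ν' : Type*} [Fintype ν] [Fintype ν'] {m p q r : ℕ} (h : p + q = r)
    {A D E : Divisor L (C.curve L)}
    {U : ν → C.Idx q → L} {z : Fin m → C.Idx q → L} {w : C.Idx p → L} {U' : ν' → C.Idx r → L}
    (hU : IsBas (C.W L q (D + E)) U) (hz : ∀ i, z i ∈ C.W L q D)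
    (hUz : LinearIndependent L (Sum.elim U z)) (hw : C.IsExact L A E w)
    (hU' : IsBas (C.W L r (A + D + E)) U') (hle : C.W L r (A + D + E) ≤ C.W L r (A + D))
    (hdim : finrank L (C.W L r (A + D + E)) + m = finrank L (C.W L r (A + D))) :
    IsBas (C.W L r (A + D)) (Sum.elim U' fun i => C.mulL L r w (z i)) := by
  refine ⟨?_, ?_, by rw [Fintype.card_sum, hU'.card, Fintype.card_fin, hdim]⟩
  · rintro (i | i)
    · exact hle (hU'.mem i)
    · exact C.mulL_mem L h hw.2.1 (hz i)
  rw [Fintype.linearIndependent_iff]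
  intro c hc
  simp only [Fintype.sum_sum_type, Sum.elim_inl, Sum.elim_inr, ← map_smul, ← map_sum] at hc
  set y := ∑ i, c (Sum.inr i) • z i with hy
  have hyD : y ∈ C.W L q D := Submodule.sum_mem _ fun i _ => Submodule.smul_mem _ _ (hz i)
  have hwy : C.mulL L r w y ∈ C.W L r (A + D + E) := by
    rw [eq_neg_of_add_eq_zero_right hc]
    exact neg_mem (Submodule.sum_mem _ fun i _ => Submodule.smul_mem _ _ (hU'.mem i))
  obtain ⟨a, ha⟩ := hU.exists_sum_eq (C.mem_of_mulL_mem L h hw hyD hwy)
  have h0 := Fintype.linearIndependent_iff.mp hUz (Sum.elim a fun i => -c (Sum.inr i)) (by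
    simp only [Fintype.sum_sum_type, Sum.elim_inl, Sum.elim_inr, neg_smul,
      Finset.sum_neg_distrib, ← hy, ha, add_neg_cancel])
  have hr0 : ∀ i, c (Sum.inr i) = 0 := fun i => neg_eq_zero.mp (h0 (Sum.inr i))
  have hy0 : y = 0 := Finset.sum_eq_zero fun i _ => by rw [hr0, zero_smul]
  rw [hy0, map_zero, add_zero] at hc
  rintro (i | i)
  · exact Fintype.linearIndependent_iff.mp hU'.li (fun i => c (Sum.inl i)) hc i
  · exact hr0 i

end Fermat.Agent.Row27

end
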