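import Fermat.Agent.Row27.Cube.Residue
import Fermat.Agent.Row27.Cube.Bases
import Mathlib.GroupTheory.QuotientGroup.Basic

/-!
# Classes of valuation functions: lattices and functions

Functions of a valuation ring trivial on `K` with nonzero values, modulo valuations of constants.
`lval b D` is the class of the largest minor of a basis of `W b D`, `phiv p X` that of a function
of level `p` vanishing on `X`.
-/

set_option autoImplicit false

noncomputable section

open AlgebraicCurve Module IsLocalRing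
open scoped Fermat.Agent.Reduction

namespace Fermat.Agent.Row27

universe u

variable (K : Type u) [Field K] (L : Type u) [Field L] [Algebra K L]

/-- Nonzero values at all valuation rings trivial on `K`. -/
abbrev VFam : Type u := ∀ A : {A : ValuationSubring L // TrivOn K A}, (A.1.ValueGroup)ˣ

/-- The values of a constant. -/
def princFam : Lˣ →* VFam K L :=
  MonoidHom.pi fun A => Units.map (A.1.valuation : L →* A.1.ValueGroup)

/-- Families of values up to a constant. -/
abbrev VCls : Type u := Additive (VFam K L ⧸ (princFam K L).range)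

variable {L}

/-- The class of a family of values. -/
def vcl (F : ∀ A : ValuationSubring L, A.ValueGroup) : VCls K L :=
  Additive.ofMul (QuotientGroup.mk fun A => by
    classical exact if h : F A.1 = 0 then 1 else Units.mk0 (F A.1) h)

/-- A family without zero values. -/
def VNe (F : ∀ A : ValuationSubring L, A.ValueGroup) : Prop :=
  ∀ A : ValuationSubring L, TrivOn K A → F A ≠ 0

variable {K} {F G : ∀ A : ValuationSubring L, A.ValueGroup}

theorem vcl_mul (hF : VNe K F) (hG : VNe K G) :
    vcl K (fun A => F A * G A) = vcl K F + vcl K G := by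
  classical
  rw [vcl, vcl, vcl, ← ofMul_mul, ← QuotientGroup.mk_mul]
  refine congrArg (fun z => Additive.ofMul (QuotientGroup.mk z)) (funext fun A => ?_)
  rw [Pi.mul_apply, dif_neg (hF A.1 A.2), dif_neg (hG A.1 A.2),
    dif_neg (mul_ne_zero (hF A.1 A.2) (hG A.1 A.2))]
  exact Units.ext rfl

theorem VNe.mul (hF : VNe K F) (hG : VNe K G) : VNe K fun A => F A * G A :=
  fun A hA => mul_ne_zero (hF A hA) (hG A hA)

theorem VNe.pow (hF : VNe K F) (n : ℕ) : VNe K fun A => F A ^ n :=
  fun A hA => pow_ne_zero n (hF A hA)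

theorem vcl_pow (hF : VNe K F) (n : ℕ) : vcl K (fun A => F A ^ n) = n • vcl K F := by
  induction n with
  | zero =>
    classical
    rw [zero_nsmul, vcl, ← ofMul_one, ← QuotientGroup.mk_one]
    refine congrArg (fun z => Additive.ofMul (QuotientGroup.mk z)) (funext fun A => ?_)
    rw [dif_neg (pow_ne_zero 0 (hF A.1 A.2))]
    exact Units.ext (pow_zero _)
  | succ n ih =>
    simp only [pow_succ, succ_nsmul]
    rw [vcl_mul (hF.pow n) hF, ih]

theorem vcl_congr (h : ∀ A : ValuationSubring L, TrivOn K A → F A = G A) : vcl K F = vcl K G := by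
  classical
  refine congrArg (fun z => Additive.ofMul (QuotientGroup.mk z)) (funext fun A => ?_)
  simp only [h A.1 A.2]

theorem vcl_eq_of_scale (hG : VNe K G) {lam : L} (hl : lam ≠ 0)
    (h : ∀ A : ValuationSubring L, TrivOn K A → F A = A.valuation lam * G A) :
    vcl K F = vcl K G := by
  have hl' : VNe K fun A : ValuationSubring L => A.valuation lam :=
    fun A _ => (Valuation.ne_zero_iff _).mpr hl
  rw [vcl_congr h, vcl_mul hl' hG, add_eq_right, vcl, ofMul_eq_zero, QuotientGroup.eq_one_iff]
  refine ⟨Units.mk0 lam hl, funext fun A => ?_⟩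
  classical
  rw [dif_neg (hl' A.1 A.2)]
  exact Units.ext rfl

theorem exists_scale_of_vcl_eq (hF : VNe K F) (hG : VNe K G) (h : vcl K F = vcl K G) :
    ∃ lam : L, lam ≠ 0 ∧ ∀ A : ValuationSubring L, TrivOn K A →
      F A = A.valuation lam * G A := by
  classical
  obtain ⟨c, hc⟩ := QuotientGroup.eq.mp (Additive.ofMul.injective h.symm)
  refine ⟨(c : L), c.ne_zero, fun A hA => ?_⟩
  have h1 := congrArg Units.val (congrFun hc ⟨A, hA⟩)
  simp only [princFam, Pi.mul_apply, Pi.inv_apply,
    dif_neg (hF A hA), dif_neg (hG A hA), Units.val_mul, Units.val_inv_eq_inv_val,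
    Units.val_mk0] at h1
  change A.valuation (c : L) = (G A)⁻¹ * F A at h1
  rw [h1, mul_comm, mul_inv_cancel_left₀ (hG A hA)]

namespace CurveData

variable (C : CurveData K) [IsAlgClosed L]

instance nonempty_pool : Nonempty (Fin C.pool) := ⟨⟨0, by simp [pool]⟩⟩

variable (L) in
/-- The class of the lattices of `W b D`. -/
def lval (b : ℕ) (D : Divisor L (C.curve L)) : VCls K L :=
  vcl K fun A => lev A (C.poolV L b) (exists_isBas (C.W L b D)).choose

variable (T : SpecTheory C)

include T in
theorem exists_lev_eq {ν : Type*} [Fintype ν] [DecidableEq ν] {b : ℕ} {D : Divisor L (C.curve L)}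
    (hD : 0 ≤ D) (hb : 2 * (C.g : ℤ) + Divisor.degree D < b) (hpool : b < C.pool)
    {U : ν → C.Idx b → L} (hU : IsBas (C.W L b D) U) (A : ValuationSubring L)
    [Fact (TrivOn K A)] :
    ∃ (u : ν → C.Idx b → A) (M : Matrix ν ν L), IsGood A (C.W L b D) u ∧ M.det ≠ 0 ∧
      (∀ i, U i = ∑ j, M i j • cA A (u j)) ∧ lev A (C.poolV L b) U = A.valuation M.det := by
  obtain ⟨u, hu⟩ := C.exists_good A T hD hb
  set e : ν ≃ Fin (finrank L (C.W L b D)) := Fintype.equivFinOfCardEq hU.card
  have hu' : IsGood A (C.W L b D) (u ∘ e) :=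
    ⟨fun i => hu.mem _, hu.li.comp e e.injective, hU.card⟩
  have hb' : IsBas (C.W L b D) fun i => cA A ((u ∘ e) i) :=
    ⟨hu'.mem, linearIndependent_cA hu'.li, hU.card⟩
  obtain ⟨M, hM⟩ := hb'.exists_matrix U hU.mem
  refine ⟨u ∘ e, M, hu', det_ne_zero_of_li hM hU.li, hM, ?_⟩
  rw [lev_change _ M hM, C.lev_cA_eq_one A hpool hu'.li, mul_one]

include T in
theorem vne_lev {ν : Type*} [Fintype ν] [DecidableEq ν] {b : ℕ} {D : Divisor L (C.curve L)}
    (hD : 0 ≤ D) (hb : 2 * (C.g : ℤ) + Divisor.degree D < b) (hpool : b < C.pool)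
    {U : ν → C.Idx b → L} (hU : IsBas (C.W L b D) U) :
    VNe K fun A => lev A (C.poolV L b) U := fun A hA => by
  have : Fact (TrivOn K A) := ⟨hA⟩
  obtain ⟨u, M, -, hM0, -, e⟩ := C.exists_lev_eq T hD hb hpool hU A
  show lev A (C.poolV L b) U ≠ 0
  rw [e]
  exact (Valuation.ne_zero_iff _).mpr hM0

include T in
/-- Any basis computes the class. -/
theorem vcl_lev {ν : Type*} [Fintype ν] [DecidableEq ν] {b : ℕ} {D : Divisor L (C.curve L)}
    (hD : 0 ≤ D) (hb : 2 * (C.g : ℤ) + Divisor.degree D < b) (hpool : b < C.pool)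
    {U : ν → C.Idx b → L} (hU : IsBas (C.W L b D) U) :
    vcl K (fun A => lev A (C.poolV L b) U) = C.lval L b D := by
  set hV := (exists_isBas (C.W L b D)).choose_spec
  set V := (exists_isBas (C.W L b D)).choose
  set e : ν ≃ Fin (finrank L (C.W L b D)) := Fintype.equivFinOfCardEq hU.card
  have hV' : IsBas (C.W L b D) fun i => V (e i) :=
    ⟨fun i => hV.mem _, hV.li.comp e e.injective, hU.card⟩
  obtain ⟨M, hM⟩ := hV'.exists_matrix U hU.mem
  refine vcl_eq_of_scale (C.vne_lev T hD hb hpool hV) (det_ne_zero_of_li hM hU.li) fun A _ => ?_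
  rw [lev_change _ M hM, lev_reindex]

variable (L) in
/-- The class of a function of level `p` vanishing on `X`. -/
def phiv (p : ℕ) (X : Divisor L (C.curve L)) : VCls K L := by
  classical
  exact if h : ∃ x ∈ C.W L p X, x ≠ 0 then
    vcl K (fun A => haveI : Nonempty (C.Idx p) := ⟨(Function.ne_iff.mp h.choose_spec.2).choose⟩
      vmax A h.choose) else 0

omit [Algebra K L] [IsAlgClosed L] in
theorem nonempty_of_ne_zero {p : ℕ} {x : C.Idx p → L} (hx : x ≠ 0) : Nonempty (C.Idx p) :=
  ⟨(Function.ne_iff.mp hx).choose⟩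

/-- A level without coordinates has no nonzero vector; `vmax` needs one. -/
def content (A : ValuationSubring L) {p : ℕ} (x : C.Idx p → L) : A.ValueGroup :=
  haveI : Decidable (x = 0) := Classical.dec _
  if h : x = 0 then 0 else @vmax L _ (C.Idx p) _ (C.nonempty_of_ne_zero h) A x

omit [Algebra K L] [IsAlgClosed L] in
theorem content_eq (A : ValuationSubring L) {p : ℕ} [Nonempty (C.Idx p)] {x : C.Idx p → L}
    (hx : x ≠ 0) : C.content A x = vmax A x := by
  rw [content, dif_neg hx]

omit [Algebra K L] [IsAlgClosed L] in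
theorem exists_normalised (A : ValuationSubring L) {p : ℕ} {x : C.Idx p → L} (hx : x ≠ 0) :
    ∃ (c : L) (x' : C.Idx p → A), c ≠ 0 ∧ x = c • cA A x' ∧ redA A x' ≠ 0 ∧
      C.content A x = A.valuation c := by
  have := C.nonempty_of_ne_zero hx
  obtain ⟨c, x', hc, rfl, i, hi⟩ := exists_scaled (A := A) x hx
  have hr : redA A x' ≠ 0 := fun e => one_ne_zero (α := ResidueField A) (by
    have := congrFun e i
    rwa [redA, hi, map_one] at this)
  refine ⟨c, x', hc, rfl, hr, ?_⟩
  rw [C.content_eq A hx, show vmax A (c • cA A x') = A.valuation c * vmax A (cA A x') from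
    vmax_const_mul c _, vmax_eq_one (s := cA A x') (fun k => (x' k).2) (i := i) (by simp [cA, hi]), mul_one]

omit [IsAlgClosed L] in
theorem vne_content {p : ℕ} {x : C.Idx p → L} (hx : x ≠ 0) :
    VNe K fun A => C.content A x := fun A _ => by
  obtain ⟨c, -, hc, -, -, e⟩ := C.exists_normalised A hx
  show C.content A x ≠ 0
  rw [e]
  exact (Valuation.ne_zero_iff _).mpr hc

theorem content_mulL (A : ValuationSubring L) [Fact (TrivOn K A)] {p q r : ℕ} (h : p + q ≤ r)
    {x : C.Idx p → L} {y : C.Idx q → L} (hx : x ≠ 0) (hy : y ≠ 0) :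
    C.content A (C.mulL L r x y) = C.content A x * C.content A y := by
  obtain ⟨c, x', hc, rfl, hx', ex⟩ := C.exists_normalised A hx
  obtain ⟨d, y', hd, rfl, hy', ey⟩ := C.exists_normalised A hy
  have e : C.mulL L r (c • cA A x') (d • cA A y') = (c * d) • cA A (C.mulA A x' y') := by
    rw [C.mulL_apply L, C.mulv_smul_left L, ← C.mulL_apply L, map_smul, smul_smul, C.cA_mulA A]
  have hne := C.mulL_ne_zero (ResidueField A) h hx' hy'
  rw [← C.redA_mulA A] at hne
  have hne' : cA A (C.mulA A (r := r) x' y') ≠ 0 := fun e0 => hne (funext fun l => by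
    rw [redA, show C.mulA A (r := r) x' y' l = 0 from Subtype.ext (congrFun e0 l), map_zero]
    rfl)
  have := C.nonempty_of_ne_zero hne'
  rw [ex, ey, e, C.content_eq A (smul_ne_zero (mul_ne_zero hc hd) hne'), ← map_mul]
  rw [show vmax A ((c * d) • cA A (C.mulA A (r := r) x' y')) =
    A.valuation (c * d) * vmax A (cA A (C.mulA A (r := r) x' y')) from vmax_const_mul _ _,
    C.vmax_cA_eq_one A hne, mul_one]

/-- Functions of level `p` vanishing on a divisor of degree `p` are proportional. -/
theorem exists_smul_eq {p : ℕ} {X : Divisor L (C.curve L)} (hX : Divisor.degree X = p)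
    {x y : C.Idx p → L} (hx : x ∈ C.W L p X) (hy : y ∈ C.W L p X) (hy0 : y ≠ 0) :
    ∃ c : L, x = c • y := by
  set g := C.realF L p y
  have hg : g ≠ 0 := C.realF_ne_zero L hy0
  obtain ⟨h1, h2⟩ := (C.rr L).section_divisor hg (show g ∈ riemannRochSpace (C.binf L p - X) from hy)
  have he := (C.rr L).eq_zero_of_nonneg_of_degree_le h1 (by
    rw [h2, map_sub, binf, (C.rr L).degree_single, hX, sub_self])
  have hord : ∀ v : Place L (C.curve L), v.ord g = -(C.binf L p - X) v := fun v => by
    have h := DFunLike.congr_fun he v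
    rw [Finsupp.add_apply, (C.rr L).divisor_apply hg, Finsupp.coe_zero, Pi.zero_apply] at h
    omega
  set q := C.realF L p x / g
  have hq : q ∈ riemannRochSpace (0 : Divisor L (C.curve L)) := by
    rcases eq_or_ne (C.realF L p x) 0 with h0 | h0
    · simp [q, h0]
    rw [MWJ0.mem_Lsp_of_ne_zero (div_ne_zero h0 hg)]
    intro v
    have h3 := (MWJ0.mem_Lsp_of_ne_zero h0).mp hx v
    rw [Finsupp.coe_zero, Pi.zero_apply, neg_zero, div_eq_mul_inv, v.ord_mul h0 (inv_ne_zero hg),
      v.ord_inv, hord]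
    omega
  have h1 : (1 : C.curve L) ∈ riemannRochSpace (0 : Divisor L (C.curve L)) := by
    rw [MWJ0.mem_Lsp_of_ne_zero one_ne_zero]
    intro v
    simp [Place.ord_one]
  have := (C.rr L).finite 0
  obtain ⟨c, hc⟩ := exists_smul_eq_of_finrank_le_one (C.finrank_Lsp_zero L)
    (v := (⟨1, h1⟩ : riemannRochSpace (0 : Divisor L (C.curve L))))
    (fun e => one_ne_zero (congrArg Subtype.val e)) ⟨q, hq⟩
  refine ⟨c, C.realF_injective L p ?_⟩
  have h4 : c • (1 : C.curve L) = q := congrArg Subtype.val hc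
  rw [map_smul, Algebra.smul_def]
  rw [Algebra.smul_def, mul_one] at h4
  rw [h4, div_mul_cancel₀ _ hg]
where
  exists_smul_eq_of_finrank_le_one {V : Type u} [AddCommGroup V] [Module L V]
      [FiniteDimensional L V] (h : finrank L V ≤ 1) {v : V} (hv : v ≠ 0) (w : V) :
      ∃ c : L, c • v = w := by
    refine (finrank_eq_one_iff_of_nonzero' v hv).mp ?_ w
    have : 0 < finrank L V := Module.finrank_pos_iff_exists_ne_zero.mpr ⟨v, hv⟩
    omega

theorem vcl_content {p : ℕ} {X : Divisor L (C.curve L)} (hX : Divisor.degree X = p)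
    {x : C.Idx p → L} (hx : x ∈ C.W L p X) (hx0 : x ≠ 0) :
    vcl K (fun A => C.content A x) = C.phiv L p X := by
  have h : ∃ y ∈ C.W L p X, y ≠ 0 := ⟨x, hx, hx0⟩
  rw [phiv, dif_pos h]
  obtain ⟨c, hc⟩ := C.exists_smul_eq hX hx h.choose_spec.1 h.choose_spec.2
  have hc0 : c ≠ 0 := fun e => hx0 (by rw [hc, e, zero_smul])
  have := C.nonempty_of_ne_zero hx0
  refine vcl_eq_of_scale (fun A hA => ?_) hc0 fun A _ => ?_
  · rw [← C.content_eq A h.choose_spec.2]; exact C.vne_content h.choose_spec.2 A hA
  · rw [C.content_eq A hx0, hc]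
    exact vmax_const_mul c _

end CurveData

end Fermat.Agent.Row27

end
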