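import Fermat.Agent.Row27.ValBound
import Mathlib

/-!
# Bases adapted to a valuation ring and their maximal minors

For a valuation ring `A` of `L`, a family of integral vectors is adapted to a space `W` when it
lies in `W`, its reductions are independent and it has `dim W` members; the valuation of the
largest minor then changes by the determinant under a change of basis.
-/

set_option autoImplicit false

noncomputable section

open Module Matrix IsLocalRing

namespace Fermat.Agent.Row27

variable {L : Type*} [Field L] (A : ValuationSubring L)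
  {ι ν ν₁ ν₂ π : Type*}

/-- An integral vector as a vector. -/
def cA (x : ι → A) : ι → L := fun i => (x i : L)

/-- The reduction of an integral vector. -/
def redA (x : ι → A) : ι → ResidueField A := fun i => residue A (x i)

/-- An adapted basis. -/
structure IsGood [Fintype ν] (W : Submodule L (ι → L)) (u : ν → ι → A) : Prop where
  mem : ∀ i, cA A (u i) ∈ W
  li : LinearIndependent (ResidueField A) fun i => redA A (u i)
  card : Fintype.card ν = finrank L W

variable {A}

lemma cA_sum [Fintype ν] (b : ν → A) (u : ν → ι → A) :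
    cA A (fun l => ∑ i, b i * u i l) = ∑ i, (b i : L) • cA A (u i) := by
  funext l
  simp [cA, Finset.sum_apply]

lemma redA_sum [Fintype ν] (b : ν → A) (u : ν → ι → A) :
    redA A (fun l => ∑ i, b i * u i l) = ∑ i, residue A (b i) • redA A (u i) := by
  funext l
  simp [redA, Finset.sum_apply]

lemma exists_scaled [Fintype ι] (c : ι → L) (hc : c ≠ 0) :
    ∃ (c₀ : L) (b : ι → A), c₀ ≠ 0 ∧ c = c₀ • cA A b ∧ ∃ i, b i = 1 := by
  classical
  obtain ⟨i₁, hi₁⟩ := Function.ne_iff.mp hc
  obtain ⟨i₀, -, hmax⟩ := Finset.exists_max_image Finset.univ (fun i => A.valuation (c i))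
    ⟨i₁, Finset.mem_univ _⟩
  have h0 : c i₀ ≠ 0 := fun h => by
    have := hmax i₁ (Finset.mem_univ _)
    rw [h, map_zero, le_zero_iff, Valuation.zero_iff] at this
    exact hi₁ this
  refine ⟨c i₀, fun i => ⟨c i / c i₀, (valuation_le_iff_div_mem A h0).mp
    (hmax i (Finset.mem_univ _))⟩, h0, ?_, i₀, Subtype.ext (div_self h0)⟩
  funext i
  simp [cA, mul_div_cancel₀ _ h0]

lemma linearIndependent_cA [Fintype ν] {u : ν → ι → A}
    (h : LinearIndependent (ResidueField A) fun i => redA A (u i)) :
    LinearIndependent L fun i => cA A (u i) := by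
  rw [Fintype.linearIndependent_iff]
  intro c hc
  by_contra! hne
  obtain ⟨c₀, b, hc₀, rfl, i₀, hi₀⟩ := exists_scaled (A := A) c (Function.ne_iff.mpr hne)
  have h0 : (fun l => ∑ i, b i * u i l) = 0 := by
    have h1 : c₀ • cA A (fun l => ∑ i, b i * u i l) = 0 := by
      rw [cA_sum, Finset.smul_sum]
      refine Eq.trans (Finset.sum_congr rfl fun i _ => ?_) hc
      rw [smul_smul]; rfl
    funext l
    exact Subtype.ext (congrFun ((smul_eq_zero.mp h1).resolve_left hc₀) l)
  have h2 := Fintype.linearIndependent_iff.mp h (fun i => residue A (b i)) (by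
    rw [← redA_sum, h0]; funext l; simp [redA]) i₀
  rw [hi₀, map_one] at h2
  exact one_ne_zero h2

/-- Adapted bases exist when the reductions fill enough dimensions. -/
lemma exists_isGood [Fintype ι] (W : Submodule L (ι → L))
    (h : finrank L W ≤ finrank (ResidueField A)
      (Submodule.span (ResidueField A) {y | ∃ x : ι → A, cA A x ∈ W ∧ y = redA A x})) :
    ∃ u : Fin (finrank L W) → ι → A, IsGood A W u := by
  classical
  have hset : {y | ∃ x : ι → A, cA A x ∈ W ∧ y = redA A x} =
      Set.range fun x : {x : ι → A // cA A x ∈ W} => redA A x.1 := by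
    ext y
    simp [eq_comm]
  rw [hset] at h
  obtain ⟨κ, a, -, hsp, hli⟩ := exists_linearIndependent' (ResidueField A)
    (fun x : {x : ι → A // cA A x ∈ W} => redA A x.1)
  have : Finite κ := hli.finite
  have := Fintype.ofFinite κ
  rw [← hsp, finrank_span_eq_card hli] at h
  set f : Fin (finrank L W) → κ := fun i => (Fintype.equivFin κ).symm (Fin.castLE h i) with hf
  exact ⟨fun i => (a (f i)).1, fun i => (a (f i)).2,
    hli.comp f ((Equiv.injective _).comp (Fin.castLE_injective h)), by simp⟩

section Minors

/-- The minors of a family of vectors. -/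
def pl [Fintype ν] [DecidableEq ν] (v : ν → π → L) (p : ν → π) : L :=
  (Matrix.of fun i j => v i (p j)).det

lemma pl_change [Fintype ν] [DecidableEq ν] (T : Matrix ν ν L) {v v' : ν → π → L}
    (h : ∀ i, v' i = ∑ j, T i j • v j) (p : ν → π) : pl v' p = T.det * pl v p := by
  rw [pl, pl, ← Matrix.det_mul]
  congr 1
  ext i j
  simp [Matrix.mul_apply, h, Finset.sum_apply]

lemma vmax_const_mul {κ : Type*} [Fintype κ] [Nonempty κ] (c : L) (s : κ → L) :
    vmax A (fun i => c * s i) = A.valuation c * vmax A s := by
  refine le_antisymm (vmax_le_iff.mpr fun i => ?_) ?_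
  · rw [map_mul]; exact mul_le_mul' le_rfl (le_vmax A s i)
  · obtain ⟨i, hi⟩ := exists_vmax_eq A s
    rw [hi, ← map_mul]
    exact le_vmax A (fun i => c * s i) i

lemma vmax_eq_one {κ : Type*} [Fintype κ] [Nonempty κ] {s : κ → L} (hs : ∀ i, s i ∈ A) {i : κ}
    (hi : A.valuation (s i) = 1) : vmax A s = 1 :=
  le_antisymm (vmax_le_iff.mpr fun k => (A.valuation_le_one_iff _).mpr (hs k))
    (hi ▸ le_vmax A s i)

lemma valuation_eq_one_of_residue_ne_zero {a : A} (h : residue A a ≠ 0) :
    A.valuation (a : L) = 1 :=
  (A.valuation_eq_one_iff a).mp ((residue_ne_zero_iff_isUnit a).mp h)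

/-- An injective reduction has a minor of valuation one. -/
lemma vmax_pl_eq_one [Fintype ν] [DecidableEq ν] [Fintype π] [Nonempty π] {u : ν → π → A}
    (h : LinearIndependent (ResidueField A) fun i => redA A (u i)) :
    vmax A (pl fun i => cA A (u i)) = 1 := by
  have hmem : ∀ p : ν → π, pl (fun i => cA A (u i)) p =
      ((Matrix.of fun i j => u i (p j)).det : A) := fun p => by
    rw [pl]
    exact (RingHom.map_det A.subtype (Matrix.of fun i j => u i (p j))).symm
  have hcols : Submodule.span (ResidueField A)
      (Set.range fun l i => redA A (u i) l) = ⊤ := by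
    by_contra hne
    obtain ⟨f, hf0, hf⟩ := Submodule.exists_le_ker_of_lt_top _ (lt_top_iff_ne_top.mpr hne)
    refine hf0 (LinearMap.pi_ext' fun i => LinearMap.ext_ring ?_)
    have h2 := Fintype.linearIndependent_iff.mp h (fun i => f (Pi.single i 1)) (by
      funext l
      have h3 := LinearMap.mem_ker.mp (hf (Submodule.subset_span ⟨l, rfl⟩))
      rw [LinearMap.pi_apply_eq_sum_univ] at h3
      simp only [smul_eq_mul] at h3
      rw [Finset.sum_apply]
      refine Eq.trans (Finset.sum_congr rfl fun i _ => ?_) h3
      rw [Pi.smul_apply, smul_eq_mul, mul_comm]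
      congr 2
      funext k
      simp [Pi.single_apply, eq_comm]) i
    simpa using h2
  obtain ⟨κ, a, -, hsp, hli⟩ := exists_linearIndependent' (ResidueField A)
    (fun l i => redA A (u i) l)
  have : Finite κ := hli.finite
  have := Fintype.ofFinite κ
  have hcard : Fintype.card ν = Fintype.card κ := by
    rw [← finrank_span_eq_card hli, hsp, hcols, finrank_top, Module.finrank_pi]
  set e := Fintype.equivOfCardEq hcard
  set p : ν → π := fun j => a (e j)
  refine vmax_eq_one (fun q => by rw [hmem]; exact SetLike.coe_mem _) (i := p) ?_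
  rw [hmem]
  refine valuation_eq_one_of_residue_ne_zero ?_
  rw [RingHom.map_det, ← isUnit_iff_ne_zero, ← Matrix.isUnit_iff_isUnit_det,
    ← Matrix.linearIndependent_cols_iff_isUnit]
  exact hli.comp e e.injective

end Minors

section Level

variable (A) [Fintype π] [Nonempty π] (E : (ι → L) →ₗ[L] (π → L))

/-- The largest valuation of a minor of the values of the family. -/
def lev [Fintype ν] [DecidableEq ν] (u : ν → ι → L) : A.ValueGroup :=
  vmax A (pl fun i => E (u i))

variable {A}

lemma lev_change [Fintype ν] [DecidableEq ν] (T : Matrix ν ν L) {u u' : ν → ι → L}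
    (h : ∀ i, u' i = ∑ j, T i j • u j) :
    lev A E u' = A.valuation T.det * lev A E u := by
  rw [lev, lev, ← vmax_const_mul]
  congr 1
  funext p
  exact pl_change T (fun i => by rw [h, map_sum]; simp [map_smul]) p

lemma lev_reindex [Fintype ν₁] [DecidableEq ν₁] [Fintype ν₂] [DecidableEq ν₂] (e : ν₁ ≃ ν₂)
    (u : ν₂ → ι → L) : lev A E (fun i => u (e i)) = lev A E u := by
  have hpl : ∀ p : ν₁ → π, pl (fun i => E (u (e i))) p = pl (fun i => E (u i)) (p ∘ e.symm) := by
    intro p
    rw [pl, pl, ← Matrix.det_reindex_self e]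
    congr 1
    ext i j
    simp
  refine le_antisymm (vmax_le_iff.mpr fun p => ?_) (vmax_le_iff.mpr fun q => ?_)
  · rw [hpl]; exact le_vmax A _ _
  · have := le_vmax A (pl fun i => E (u (e i))) (q ∘ e)
    rwa [hpl, Function.comp_assoc, e.self_comp_symm, Function.comp_id] at this

/-- Bases with a common complement: the ratio is the determinant on the quotient. -/
lemma lev_block [Fintype ν₁] [DecidableEq ν₁] [Fintype ν₂] [DecidableEq ν₂]
    {U' u' : ν₁ → ι → L} {z z' : ν₂ → ι → L} {T : Matrix ν₁ ν₁ L} {R : Matrix ν₂ ν₁ L}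
    {Q : Matrix ν₂ ν₂ L} (hU : ∀ i, U' i = ∑ j, T i j • u' j)
    (hz : ∀ i, z i = ∑ j, R i j • u' j + ∑ j, Q i j • z' j) :
    lev A E (Sum.elim U' z) = A.valuation T.det * A.valuation Q.det * lev A E (Sum.elim u' z') := by
  rw [← map_mul, ← Matrix.det_fromBlocks_zero₁₂ T R Q]
  refine lev_change E _ fun i => ?_
  rcases i with i | i
  · simp [Fintype.sum_sum_type, hU]
  · simp [Fintype.sum_sum_type, hz]

end Level

end Fermat.Agent.Row27

end
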