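import Fermat.Agent.Row27.Interface
import Fermat.Agent.Row27.Cube.Lattice

/-!
# The spaces `W b D`, products and values at the rational points
-/

set_option autoImplicit false

noncomputable section

open AlgebraicCurve Module

namespace Fermat.Agent.Row27

universe u

variable {K : Type u} [Field K]

namespace CurveData

variable (C : CurveData K) (L : Type u) [Field L] [Algebra K L] [IsAlgClosed L]

local notation "Lsp" => riemannRochSpace (K := L) (F := C.curve L)

theorem finrank_W_int (b : ℕ) {D : Divisor L (C.curve L)} (hD : 0 ≤ D)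
    (hb : 2 * (C.g : ℤ) + Divisor.degree D ≤ b) :
    (finrank L (C.W L b D) : ℤ) = b - Divisor.degree D + 1 - C.g := by
  have hle : Lsp (C.binf L b - D) ≤ LinearMap.range (C.realF L b) := by
    rw [C.range_realF]
    exact MWJ0.Lsp_mono (sub_le_self _ hD)
  have e := (Submodule.equivMapOfInjective _ (C.realF_injective L b) (C.W L b D)).finrank_eq
  rw [W, Submodule.map_comap_eq, inf_eq_right.mpr hle] at e
  have h := (C.rr L).dim_eq (C.binf L b - D) (by
    rw [map_sub, binf, (C.rr L).degree_single, C.rr_g]; omega)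
  rw [map_sub, binf, (C.rr L).degree_single, C.rr_g] at h
  rw [← binf] at h
  rw [W, e]
  exact h

theorem mem_W_zero {b : ℕ} (x : C.Idx b → L) : x ∈ C.W L b 0 := by
  rw [mem_W, sub_zero]
  exact (C.range_realF L b).le ⟨x, rfl⟩

theorem realF_ne_zero {b : ℕ} {x : C.Idx b → L} (hx : x ≠ 0) : C.realF L b x ≠ 0 :=
  fun h => hx (C.realF_injective L b (h.trans (map_zero _).symm))

theorem exists_eq_realF {b : ℕ} {D : Divisor L (C.curve L)} (hD : 0 ≤ D) {f : C.curve L}
    (hf : f ∈ Lsp (C.binf L b - D)) : ∃ x ∈ C.W L b D, C.realF L b x = f := by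
  obtain ⟨x, rfl⟩ : f ∈ LinearMap.range (C.realF L b) := by
    rw [C.range_realF]; exact MWJ0.Lsp_mono (sub_le_self _ hD) hf
  exact ⟨x, hf, rfl⟩

theorem binf_add {p q r : ℕ} (h : p + q = r) :
    C.binf L p + C.binf L q = C.binf L r := by
  rw [binf, binf, binf, ← h, Nat.cast_add, Finsupp.single_add]

/-- Multiplication by `x` in coordinates. -/
def mulL {p q : ℕ} (r : ℕ) (x : C.Idx p → L) : (C.Idx q → L) →ₗ[L] (C.Idx r → L) where
  toFun y := C.mulv p q r x y
  map_add' y y' := by
    funext l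
    simp [mulv, mulVec, mul_add, Finset.sum_add_distrib]
  map_smul' c y := by
    funext l
    simp only [mulv, mulVec, Pi.smul_apply, smul_eq_mul, RingHom.id_apply, Finset.mul_sum]
    refine Finset.sum_congr rfl fun i _ => Finset.sum_congr rfl fun j _ => ?_
    simp only [Algebra.smul_def]
    ring

omit [IsAlgClosed L] in
theorem mulL_apply {p q r : ℕ} (x : C.Idx p → L) (y : C.Idx q → L) :
    C.mulL L r x y = C.mulv p q r x y := rfl

omit [IsAlgClosed L] in
theorem mulv_smul_left {p q r : ℕ} (c : L) (x : C.Idx p → L) (y : C.Idx q → L) :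
    C.mulv p q r (c • x) y = c • C.mulv p q r x y := by
  funext l
  simp only [mulv, mulVec, Pi.smul_apply, smul_eq_mul, Finset.mul_sum]
  refine Finset.sum_congr rfl fun i _ => Finset.sum_congr rfl fun j _ => ?_
  simp only [Algebra.smul_def]
  ring

theorem realF_mulL {p q r : ℕ} (h : p + q ≤ r) (x : C.Idx p → L) (y : C.Idx q → L) :
    C.realF L r (C.mulL L r x y) = C.realF L p x * C.realF L q y :=
  C.realF_mul L p q r h x y

theorem mulL_ne_zero {p q r : ℕ} (h : p + q ≤ r) {x : C.Idx p → L} {y : C.Idx q → L}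
    (hx : x ≠ 0) (hy : y ≠ 0) : C.mulL L r x y ≠ 0 := fun e => by
  have := C.realF_mulL L h x y
  rw [e, map_zero] at this
  exact mul_ne_zero (C.realF_ne_zero L hx) (C.realF_ne_zero L hy) this.symm

theorem mulL_injective {p q r : ℕ} (h : p + q ≤ r) {x : C.Idx p → L} (hx : x ≠ 0) :
    Function.Injective (C.mulL (q := q) L r x) :=
  (injective_iff_map_eq_zero _).mpr fun _ hy => by_contra fun hy' => C.mulL_ne_zero L h hx hy' hy

theorem mulL_mem {p q r : ℕ} (h : p + q = r) {A D : Divisor L (C.curve L)} {x : C.Idx p → L}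
    {y : C.Idx q → L} (hx : x ∈ C.W L p A) (hy : y ∈ C.W L q D) :
    C.mulL L r x y ∈ C.W L r (A + D) := by
  rw [mem_W, C.realF_mulL L h.le, ← C.binf_add L h,
    show C.binf L p + C.binf L q - (A + D) = C.binf L p - A + (C.binf L q - D) by abel]
  exact MWJ0.mul_mem_Lsp hx hy

theorem mulL_comm {p p' q s s' r : ℕ} (h1 : p + q ≤ s) (h2 : p' + q ≤ s') (h3 : p' + s ≤ r)
    (h4 : p + s' ≤ r) (x : C.Idx p → L) (x' : C.Idx p' → L) (y : C.Idx q → L) :
    C.mulL L r x' (C.mulL L s x y) = C.mulL L r x (C.mulL L s' x' y) := by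
  refine C.realF_injective L r ?_
  rw [C.realF_mulL L h3, C.realF_mulL L h1, C.realF_mulL L h4, C.realF_mulL L h2]
  ring

/-- `w` has exact order at the places of `E`. -/
def IsExact {p : ℕ} (A E : Divisor L (C.curve L)) (w : C.Idx p → L) : Prop :=
  w ≠ 0 ∧ w ∈ C.W L p A ∧ ∀ v ∈ E.support, v.ord (C.realF L p w) = -(C.binf L p - A) v

/-- Multiplication by an exact function reflects vanishing on `E`. -/
theorem mem_of_mulL_mem {p q r : ℕ} (h : p + q = r) {A D E : Divisor L (C.curve L)}
    {w : C.Idx p → L} (hw : C.IsExact L A E w) {z : C.Idx q → L} (hz : z ∈ C.W L q D)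
    (hwz : C.mulL L r w z ∈ C.W L r (A + D + E)) : z ∈ C.W L q (D + E) := by
  rcases eq_or_ne z 0 with rfl | hz0
  · exact zero_mem _
  have hw1 := C.realF_ne_zero L hw.1
  have hz1 := C.realF_ne_zero L hz0
  rw [mem_W, MWJ0.mem_Lsp_of_ne_zero hz1] at hz ⊢
  rw [mem_W, C.realF_mulL L h.le, MWJ0.mem_Lsp_of_ne_zero (mul_ne_zero hw1 hz1),
    ← C.binf_add L h] at hwz
  intro v
  have h1 := hwz v
  have h2 := hz v
  simp only [Finsupp.sub_apply, Finsupp.add_apply] at h1 h2 ⊢
  rw [v.ord_mul hw1 hz1] at h1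
  by_cases hv : v ∈ E.support
  · have h3 := hw.2.2 v hv
    simp only [Finsupp.sub_apply] at h3
    omega
  · rw [Finsupp.notMem_support_iff] at hv
    omega

theorem exists_isExact {p : ℕ} {A : Divisor L (C.curve L)} (hA : 0 ≤ A)
    (hp : 2 * (C.g : ℤ) + Divisor.degree A < p) (E : Divisor L (C.curve L)) :
    ∃ w : C.Idx p → L, C.IsExact L A E w := by
  have hdeg : Divisor.degree (C.binf L p - A) = p - Divisor.degree A := by
    rw [map_sub, binf, (C.rr L).degree_single]
  have hne : Lsp (C.binf L p - A) ≠ ⊥ := fun e => by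
    have := (C.rr L).dim_eq (C.binf L p - A) (by rw [hdeg, C.rr_g]; omega)
    rw [e, finrank_bot, hdeg, C.rr_g] at this
    omega
  obtain ⟨f, hf, hf0, hfE⟩ := MWJ0.RRData.exists_avoid (Lsp (C.binf L p - A))
    (fun v => (C.rr L).Lsp_sub_single_ne _ v (by rw [hdeg, C.rr_g]; omega)) le_rfl hne E.support
  obtain ⟨w, hw, rfl⟩ := C.exists_eq_realF L hA hf
  exact ⟨w, fun e => hf0 (by rw [e, map_zero]), hw, hfE⟩

/-- The values at the rational points. -/
def poolV (b : ℕ) : (C.Idx b → L) →ₗ[L] (Fin C.pool → L) where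
  toFun x k := C.evAt k b x
  map_add' x y := by funext k; simp [evAt, add_mul, Finset.sum_add_distrib]
  map_smul' c x := by funext k; simp [evAt, Finset.mul_sum, mul_assoc]

theorem poolV_injective {b : ℕ} (hb : b < C.pool) : Function.Injective (C.poolV L b) := by
  rw [injective_iff_map_eq_zero]
  intro x hx
  by_contra hx0
  have hf := C.realF_ne_zero L hx0
  have hk : ∀ k : Fin C.pool, -(C.binf L b - Finsupp.single (C.pt L k) (1 : ℤ)) (C.pt L k) ≤
      (C.pt L k).ord (C.realF L b x) := fun k => by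
    have h := C.pt_ev L k b x
    rw [show ∑ j, x j * algebraMap K L (C.ev k b j) = 0 from congrFun hx k, map_zero, sub_zero,
      MWJ0.mem_Lsp_of_ne_zero hf] at h
    exact h (C.pt L k)
  set P : Divisor L (C.curve L) := ∑ k : Fin C.pool, Finsupp.single (C.pt L k) (1 : ℤ) with hP
  have hmem : C.realF L b x ∈ Lsp (C.binf L b - P) := by
    rw [MWJ0.mem_Lsp_of_ne_zero hf]
    intro v
    have h0 : C.realF L b x ∈ LinearMap.range (C.realF L b) := ⟨x, rfl⟩
    rw [C.range_realF, MWJ0.mem_Lsp_of_ne_zero hf] at h0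
    have h1 := h0 v
    simp only [Finsupp.sub_apply, binf, hP, Finsupp.finsetSum_apply] at h1 ⊢
    by_cases hv : ∃ k : Fin C.pool, C.pt L k = v
    · obtain ⟨k, rfl⟩ := hv
      rw [Finset.sum_eq_single k (fun j _ hj => Finsupp.single_eq_of_ne fun e =>
        hj (Fin.ext (C.pt_injective L e)).symm) (by simp), Finsupp.single_eq_same]
      have h2 := hk k
      simp only [Finsupp.sub_apply, binf, Finsupp.single_eq_same] at h2
      exact h2
    · push Not at hv
      rw [Finset.sum_eq_zero fun k _ => Finsupp.single_eq_of_ne (Ne.symm (hv k)), sub_zero]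
      exact h1
  rw [(C.rr L).Lsp_eq_bot_of_degree_neg (by
    rw [map_sub, binf, (C.rr L).degree_single, hP, map_sum,
      Finset.sum_congr rfl fun k _ => (C.rr L).degree_single _ _]
    simp only [Finset.sum_const, Finset.card_univ, Fintype.card_fin, nsmul_eq_mul, mul_one]
    omega), Submodule.mem_bot] at hmem
  exact hf hmem

/-- `L(0)` is one-dimensional. -/
theorem finrank_Lsp_zero : finrank L (Lsp 0) ≤ 1 := by
  have h := (C.rr L).finrank_sub_single 0 (C.inf L)
  rw [(C.rr L).Lsp_eq_bot_of_degree_neg (D := 0 - Finsupp.single (C.inf L) 1)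
    (by rw [map_sub, map_zero, (C.rr L).degree_single]; omega), finrank_bot] at h
  exact h

end CurveData

end Fermat.Agent.Row27

end
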