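import Fermat.Agent.Row27.Cube.Classes

/-!
# Gauss's lemma, translation by principal divisors and the theorem of the cube
-/

set_option autoImplicit false

noncomputable section

open AlgebraicCurve Module IsLocalRing Matrix
open scoped Fermat.Agent.Reduction

namespace Fermat.Agent.Row27

universe u

variable {K : Type u} [Field K] {L : Type u} [Field L] [Algebra K L] [IsAlgClosed L]

namespace CurveData

variable (C : CurveData K) (T : SpecTheory C)

/-- The dimension of `W b D` for `deg D = d`. -/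
theorem finrank_W_nat (b d : ℕ) {D : Divisor L (C.curve L)} (hD : 0 ≤ D)
    (hd : Divisor.degree D = d) (hb : 2 * C.g + d ≤ b) :
    finrank L (C.W L b D) = b + 1 - C.g - d := by
  have h := C.finrank_W_int L b hD (by rw [hd]; exact_mod_cast hb)
  rw [hd] at h
  omega

/-- **Gauss's lemma.** -/
theorem phiv_add {p q r : ℕ} (h : p + q = r) {X Y : Divisor L (C.curve L)}
    (hX : Divisor.degree X = p) (hY : Divisor.degree Y = q)
    (hx : ∃ x ∈ C.W L p X, x ≠ 0) (hy : ∃ y ∈ C.W L q Y, y ≠ 0) :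
    C.phiv L r (X + Y) = C.phiv L p X + C.phiv L q Y := by
  obtain ⟨x, hx, hx0⟩ := hx
  obtain ⟨y, hy, hy0⟩ := hy
  have hm := C.mulL_mem L h hx hy
  have hm0 := C.mulL_ne_zero L h.le hx0 hy0
  rw [← C.vcl_content hX hx hx0, ← C.vcl_content hY hy hy0,
    ← C.vcl_content (by rw [map_add, hX, hY, ← h, Nat.cast_add]) hm hm0,
    ← vcl_mul (C.vne_content hx0) (C.vne_content hy0)]
  refine vcl_congr fun A hA => ?_
  have : Fact (TrivOn K A) := ⟨hA⟩
  exact C.content_mulL A h.le hx0 hy0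

include T in
/-- **Translation by a principal divisor.** -/
theorem lval_shift {p b r d : ℕ} (h : p + b = r) (hr : r < C.pool)
    {D X : Divisor L (C.curve L)} (hD : 0 ≤ D) (hd : Divisor.degree D = d) (hb : 2 * C.g + d < b)
    (hX0 : 0 ≤ X) (hX : Divisor.degree X = p) (hx : ∃ x ∈ C.W L p X, x ≠ 0) :
    C.lval L r (D + X) = (b + 1 - C.g - d) • C.phiv L p X + C.lval L b D := by
  obtain ⟨x, hx, hx0⟩ := hx
  obtain ⟨U, hU⟩ := exists_isBas (C.W L b D)
  have hN := C.finrank_W_nat b d hD hd hb.le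
  have hdeg : Divisor.degree (D + X) = ((d + p : ℕ) : ℤ) := by
    rw [map_add, hd, hX, Nat.cast_add]
  have hN' := C.finrank_W_nat r (d + p) (add_nonneg hD hX0) hdeg (by omega)
  have hV : IsBas (C.W L r (D + X)) fun i => C.mulL L r x (U i) :=
    ⟨fun i => add_comm X D ▸ C.mulL_mem L h hx (hU.mem i),
      hU.li.map' _ (LinearMap.ker_eq_bot.mpr (C.mulL_injective L h.le hx0)), by
      rw [hU.card, hN, hN']; omega⟩
  have hb' : 2 * (C.g : ℤ) + Divisor.degree D < b := by rw [hd]; exact_mod_cast hb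
  have hr' : 2 * (C.g : ℤ) + Divisor.degree (D + X) < r := by rw [hdeg]; push_cast; omega
  rw [← C.vcl_lev T (add_nonneg hD hX0) hr' hr hV, ← C.vcl_lev T hD hb' (by omega) hU,
    ← C.vcl_content hX hx hx0, ← vcl_pow (C.vne_content hx0),
    ← vcl_mul ((C.vne_content hx0).pow _) (C.vne_lev T hD hb' (by omega) hU)]
  refine vcl_congr fun A hA => ?_
  have : Fact (TrivOn K A) := ⟨hA⟩
  obtain ⟨u, M, hu, -, hM, eU⟩ := C.exists_lev_eq T hD hb' (by omega) hU A
  obtain ⟨c, x', hc, rfl, hx', ec⟩ := C.exists_normalised A hx0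
  have hgood : LinearIndependent (ResidueField A) fun i => redA A (C.mulA A (r := r) x' (u i)) := by
    simp only [C.redA_mulA A]
    exact hu.li.map' _ (LinearMap.ker_eq_bot.mpr (C.mulL_injective (ResidueField A) h.le hx'))
  rw [lev_change _ (c • M) (u := fun i => cA A (C.mulA A (r := r) x' (u i))) fun i => ?_,
    C.lev_cA_eq_one A hr hgood, mul_one, Matrix.det_smul, map_mul, map_pow, eU, ec,
    show Fintype.card (Fin (finrank L (C.W L b D))) = b + 1 - C.g - d from
      (Fintype.card_fin _).trans hN]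
  rw [hM i, map_sum]
  refine Finset.sum_congr rfl fun j _ => ?_
  rw [C.cA_mulA A, map_smul, C.mulL_apply L, C.mulv_smul_left L, ← C.mulL_apply L, Matrix.smul_apply,
    smul_smul, smul_eq_mul, mul_comm c]

/-- A vector of level `q` that lies in the space of a smaller divisor. -/
theorem W_mono {q : ℕ} {D D' : Divisor L (C.curve L)} (h : D ≤ D') :
    C.W L q D' ≤ C.W L q D := fun _ hy =>
  MWJ0.Lsp_mono (sub_le_sub_left h _) hy

/-- Integral families with independent reductions are bases with a minor of valuation one. -/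
theorem isBas_cA (A : ValuationSubring L) [Fact (TrivOn K A)] {ν : Type*} [Fintype ν]
    [DecidableEq ν] {m b : ℕ} {W' : Submodule L (C.Idx b → L)} (hb : b < C.pool)
    {x : ν → C.Idx b → A} {y : Fin m → C.Idx b → A}
    (hli : LinearIndependent (ResidueField A)
      (Sum.elim (fun i => redA A (x i)) fun i => redA A (y i)))
    (hx : ∀ i, cA A (x i) ∈ W') (hy : ∀ i, cA A (y i) ∈ W')
    (hc : Fintype.card ν + m = finrank L W') :
    IsBas W' (Sum.elim (fun i => cA A (x i)) fun i => cA A (y i)) ∧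
      lev A (C.poolV L b) (Sum.elim (fun i => cA A (x i)) fun i => cA A (y i)) = 1 := by
  have e : Sum.elim (fun i => cA A (x i)) (fun i => cA A (y i)) =
      fun t => cA A (Sum.elim x y t) := by funext t; rcases t with i | i <;> rfl
  have e' : Sum.elim (fun i => redA A (x i)) (fun i => redA A (y i)) =
      fun t => redA A (Sum.elim x y t) := by funext t; rcases t with i | i <;> rfl
  rw [e'] at hli
  rw [e]
  exact ⟨⟨Sum.rec hx hy, linearIndependent_cA hli, by
    rw [Fintype.card_sum, Fintype.card_fin, hc]⟩, C.lev_cA_eq_one A hb hli⟩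

omit [IsAlgClosed L] in
/-- The effect of a complement on the largest minor. -/
theorem lev_elim (A : ValuationSubring L) {ν : Type*} [Fintype ν] [DecidableEq ν] {m b : ℕ}
    {P : Submodule L (C.Idx b → L)} {U : ν → C.Idx b → L} {u : ν → C.Idx b → A}
    {M : Matrix ν ν L} {Z Z' : Fin m → C.Idx b → L} {X : Matrix (Fin m) (Fin m) L}
    (hu : IsGood A P u) (hM : ∀ i, U i = ∑ j, M i j • cA A (u j))
    (eU : lev A (C.poolV L b) U = A.valuation M.det) (hX : Cong P X Z Z')
    (h1 : lev A (C.poolV L b) (Sum.elim (fun i => cA A (u i)) Z') = 1) :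
    lev A (C.poolV L b) (Sum.elim U Z) = lev A (C.poolV L b) U * A.valuation X.det := by
  obtain ⟨R, hR⟩ := (show IsBas P fun i => cA A (u i) from
    ⟨hu.mem, linearIndependent_cA hu.li, hu.card⟩).exists_matrix
      (fun i => Z i - ∑ j, X i j • Z' j) hX
  rw [lev_block (C.poolV L b) hM (R := R) (Q := X) (z' := Z') fun i => by
    rw [← hR i, sub_add_cancel], h1, mul_one, eU]

/-- Imposing an effective divisor lowers the dimension by its degree. -/
theorem finrank_W_add {n : ℕ} {D E : Divisor L (C.curve L)} {e : ℕ} (hD : 0 ≤ D) (hE : 0 ≤ E)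
    (he : Divisor.degree E = e) (h : 2 * (C.g : ℤ) + Divisor.degree (D + E) < n) :
    finrank L (C.W L n (D + E)) + e = finrank L (C.W L n D) := by
  have h1 := C.finrank_W_int L n (add_nonneg hD hE) h.le
  rw [map_add, he] at h h1
  have := C.finrank_W_int L n hD (by omega)
  omega

include T in
/-- **The theorem of the cube.** -/
theorem lval_cube {p q s r d₁ d₂ d₃ : ℕ} (h1 : p + q = s) (h2 : p + s = r) (hr : r < C.pool)
    {D₁ D₂ D₃ : Divisor L (C.curve L)} (hD₁ : 0 ≤ D₁) (hD₂ : 0 ≤ D₂) (hD₃ : 0 ≤ D₃)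
    (e₁ : Divisor.degree D₁ = d₁) (e₂ : Divisor.degree D₂ = d₂) (e₃ : Divisor.degree D₃ = d₃)
    (hp₁ : 2 * C.g + d₁ < p) (hp₂ : 2 * C.g + d₂ < p) (hq : 2 * C.g + d₃ < q) :
    C.lval L r (D₁ + D₂) + C.lval L q 0 + C.lval L s (D₁ + D₃) + C.lval L s (D₂ + D₃) =
      C.lval L r (D₁ + D₂ + D₃) + C.lval L q D₃ + C.lval L s D₁ + C.lval L s D₂ := by
  classical
  -- degrees and inclusions
  have f1 : 2 * (C.g : ℤ) + Divisor.degree D₁ < p := by rw [e₁]; exact_mod_cast hp₁
  have f2 : 2 * (C.g : ℤ) + Divisor.degree D₂ < p := by rw [e₂]; exact_mod_cast hp₂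
  have g0 : 2 * (C.g : ℤ) + Divisor.degree (0 : Divisor L (C.curve L)) < q := by
    rw [map_zero]; omega
  have g3 : 2 * (C.g : ℤ) + Divisor.degree D₃ < q := by rw [e₃]; exact_mod_cast hq
  have s1 : 2 * (C.g : ℤ) + Divisor.degree D₁ < s := by omega
  have s2 : 2 * (C.g : ℤ) + Divisor.degree D₂ < s := by omega
  have n13 := add_nonneg hD₁ hD₃
  have n23 := add_nonneg hD₂ hD₃
  have n12 := add_nonneg hD₁ hD₂
  have n123 := add_nonneg n12 hD₃
  have s13 : 2 * (C.g : ℤ) + Divisor.degree (D₁ + D₃) < s := by rw [map_add, e₁, e₃]; omega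
  have s23 : 2 * (C.g : ℤ) + Divisor.degree (D₂ + D₃) < s := by rw [map_add, e₂, e₃]; omega
  have r12 : 2 * (C.g : ℤ) + Divisor.degree (D₁ + D₂) < r := by rw [map_add, e₁, e₂]; omega
  have r123 : 2 * (C.g : ℤ) + Divisor.degree (D₁ + D₂ + D₃) < r := by
    rw [map_add, map_add, e₁, e₂, e₃]; omega
  have pq : q < C.pool := by omega
  have ps : s < C.pool := by omega
  have c0 : finrank L (C.W L q D₃) + d₃ = finrank L (C.W L q 0) := by
    have := C.finrank_W_add (n := q) (D := (0 : Divisor L (C.curve L))) le_rfl hD₃ e₃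
      (by rw [zero_add]; exact g3)
    rwa [zero_add] at this
  have c1 := C.finrank_W_add hD₁ hD₃ e₃ s13
  have c2 := C.finrank_W_add hD₂ hD₃ e₃ s23
  have c12 := C.finrank_W_add n12 hD₃ e₃ r123
  have l0 : C.W L q D₃ ≤ C.W L q 0 := C.W_mono hD₃
  have l1 : C.W L s (D₁ + D₃) ≤ C.W L s D₁ := C.W_mono (le_add_of_nonneg_right hD₃)
  have l2 : C.W L s (D₂ + D₃) ≤ C.W L s D₂ := C.W_mono (le_add_of_nonneg_right hD₃)
  have l12 : C.W L r (D₁ + D₂ + D₃) ≤ C.W L r (D₁ + D₂) :=
    C.W_mono (le_add_of_nonneg_right hD₃)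
  -- global bases
  obtain ⟨UC, hUC⟩ := exists_isBas (C.W L q D₃)
  obtain ⟨v, hv, hUv⟩ := hUC.exists_extend l0 c0
  obtain ⟨w, hw⟩ := C.exists_isExact L hD₁ f1 D₃
  obtain ⟨w', hw'⟩ := C.exists_isExact L hD₂ f2 D₃
  obtain ⟨U1, hU1⟩ := exists_isBas (C.W L s (D₁ + D₃))
  obtain ⟨U2, hU2⟩ := exists_isBas (C.W L s (D₂ + D₃))
  obtain ⟨U12, hU12⟩ := exists_isBas (C.W L r (D₁ + D₂ + D₃))
  have hB1 : IsBas (C.W L s D₁) (Sum.elim U1 fun i => C.mulL L s w (v i)) := by
    have := C.isBas_step (D := 0) L h1 (U := UC) (by rwa [zero_add]) hv hUv.li hw (U' := U1)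
      (by rwa [add_zero]) (by rwa [add_zero]) (by rwa [add_zero])
    rwa [add_zero] at this
  have hB2 : IsBas (C.W L s D₂) (Sum.elim U2 fun i => C.mulL L s w' (v i)) := by
    have := C.isBas_step (D := 0) L h1 (U := UC) (by rwa [zero_add]) hv hUv.li hw' (U' := U2)
      (by rwa [add_zero]) (by rwa [add_zero]) (by rwa [add_zero])
    rwa [add_zero] at this
  have hB12 : IsBas (C.W L r (D₁ + D₂))
      (Sum.elim U12 fun i => C.mulL L r w' (C.mulL L s w (v i))) := by
    have e : D₂ + D₁ = D₁ + D₂ := add_comm _ _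
    have := C.isBas_step L h2 (D := D₁) hU1 (fun i => hB1.mem (Sum.inr i)) hB1.li hw' (U' := U12)
      (by rwa [e]) (by rwa [e]) (by rwa [e])
    rwa [e] at this
  rw [← C.vcl_lev T n12 r12 hr hB12, ← C.vcl_lev T le_rfl g0 pq hUv,
    ← C.vcl_lev T n13 s13 ps hU1, ← C.vcl_lev T n23 s23 ps hU2,
    ← C.vcl_lev T n123 r123 hr hU12, ← C.vcl_lev T hD₃ g3 pq hUC,
    ← C.vcl_lev T hD₁ s1 ps hB1, ← C.vcl_lev T hD₂ s2 ps hB2]
  have a12 := C.vne_lev T n12 r12 hr hB12
  have a0 := C.vne_lev T le_rfl g0 pq hUv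
  have a13 := C.vne_lev T n13 s13 ps hU1
  have a23 := C.vne_lev T n23 s23 ps hU2
  have a123 := C.vne_lev T n123 r123 hr hU12
  have a3 := C.vne_lev T hD₃ g3 pq hUC
  have a1 := C.vne_lev T hD₁ s1 ps hB1
  have a2 := C.vne_lev T hD₂ s2 ps hB2
  rw [← vcl_mul a12 a0, ← vcl_mul (a12.mul a0) a13, ← vcl_mul ((a12.mul a0).mul a13) a23,
    ← vcl_mul a123 a3, ← vcl_mul (a123.mul a3) a1, ← vcl_mul ((a123.mul a3).mul a1) a2]
  refine vcl_congr fun A hA => ?_
  have : Fact (TrivOn K A) := ⟨hA⟩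
  -- adapted bases at `A`
  obtain ⟨uC, MC, huC, -, hMC, eC⟩ := C.exists_lev_eq T hD₃ g3 pq hUC A
  obtain ⟨u1, M1, hu1, -, hM1, eu1⟩ := C.exists_lev_eq T n13 s13 ps hU1 A
  obtain ⟨u2, M2, hu2, -, hM2, eu2⟩ := C.exists_lev_eq T n23 s23 ps hU2 A
  obtain ⟨u12, M12, hu12, -, hM12, eu12⟩ := C.exists_lev_eq T n123 r123 hr hU12 A
  have kC : IsBas (C.W (ResidueField A) q (C.redDiv A T D₃)) fun i => redA A (uC i) :=
    ⟨fun i => C.red_mem_W A T hD₃ g3 (huC.mem i), huC.li,
      by rw [C.finrank_redW A T hD₃ g3]; exact huC.card⟩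
  have k1 : IsBas (C.W (ResidueField A) s (C.redDiv A T (D₁ + D₃))) fun i => redA A (u1 i) :=
    ⟨fun i => C.red_mem_W A T n13 s13 (hu1.mem i), hu1.li,
      by rw [C.finrank_redW A T n13 s13]; exact hu1.card⟩
  have k2 : IsBas (C.W (ResidueField A) s (C.redDiv A T (D₂ + D₃))) fun i => redA A (u2 i) :=
    ⟨fun i => C.red_mem_W A T n23 s23 (hu2.mem i), hu2.li,
      by rw [C.finrank_redW A T n23 s23]; exact hu2.card⟩
  have k12 : IsBas (C.W (ResidueField A) r (C.redDiv A T (D₁ + D₂ + D₃)))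
      fun i => redA A (u12 i) :=
    ⟨fun i => C.red_mem_W A T n123 r123 (hu12.mem i), hu12.li,
      by rw [C.finrank_redW A T n123 r123]; exact hu12.card⟩
  have m0 : C.W (ResidueField A) q (C.redDiv A T D₃) ≤
      C.W (ResidueField A) q (C.redDiv A T 0) := C.W_mono (by
    rw [show C.redDiv A T 0 = 0 from Finsupp.mapDomain_zero]
    exact C.redDiv_nonneg A T hD₃)
  have hc0' : finrank (ResidueField A) (C.W (ResidueField A) q (C.redDiv A T D₃)) + d₃ =
      finrank (ResidueField A) (C.W (ResidueField A) q (C.redDiv A T 0)) := by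
    rw [C.finrank_redW A T hD₃ g3, C.finrank_redW A T le_rfl g0, c0]
  obtain ⟨zb, hzb, hCz⟩ := kC.exists_extend m0 hc0'
  choose z hzW hz using fun i => C.exists_lift A T le_rfl g0 (hzb i)
  obtain rfl : (fun i => redA A (z i)) = zb := funext hz
  obtain ⟨wb, hwb⟩ := C.exists_isExact (ResidueField A) (C.redDiv_nonneg A T hD₁)
    (p := p) (by rw [C.degree_redDiv A T]; exact f1) (C.redDiv A T D₃)
  obtain ⟨w₁, hw₁, rfl⟩ := C.exists_lift A T hD₁ f1 hwb.2.1
  obtain ⟨wb', hwb'⟩ := C.exists_isExact (ResidueField A) (C.redDiv_nonneg A T hD₂)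
    (p := p) (by rw [C.degree_redDiv A T]; exact f2) (C.redDiv A T D₃)
  obtain ⟨w₂, hw₂, rfl⟩ := C.exists_lift A T hD₂ f2 hwb'.2.1
  have hr0 : C.redDiv A T (0 : Divisor L (C.curve L)) = 0 := Finsupp.mapDomain_zero
  have kB1 : IsBas (C.W (ResidueField A) s (C.redDiv A T D₁))
      (Sum.elim (fun i => redA A (u1 i)) fun i => redA A (C.mulA A (r := s) w₁ (z i))) := by
    simp only [C.redA_mulA A]
    have := C.isBas_step (ResidueField A) h1 (D := C.redDiv A T 0) (U := fun i => redA A (uC i))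
      (by rwa [hr0, zero_add]) hzb hCz.li hwb (U' := fun i => redA A (u1 i))
      (by rwa [hr0, add_zero, ← C.redDiv_add A T])
      (by rw [hr0, add_zero]; exact C.W_mono (le_add_of_nonneg_right (C.redDiv_nonneg A T hD₃)))
      (by rw [hr0, add_zero, ← C.redDiv_add A T, C.finrank_redW A T n13 s13,
        C.finrank_redW A T hD₁ s1, c1])
    rwa [hr0, add_zero] at this
  have kB2 : IsBas (C.W (ResidueField A) s (C.redDiv A T D₂))
      (Sum.elim (fun i => redA A (u2 i)) fun i => redA A (C.mulA A (r := s) w₂ (z i))) := by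
    simp only [C.redA_mulA A]
    have := C.isBas_step (ResidueField A) h1 (D := C.redDiv A T 0) (U := fun i => redA A (uC i))
      (by rwa [hr0, zero_add]) hzb hCz.li hwb' (U' := fun i => redA A (u2 i))
      (by rwa [hr0, add_zero, ← C.redDiv_add A T])
      (by rw [hr0, add_zero]; exact C.W_mono (le_add_of_nonneg_right (C.redDiv_nonneg A T hD₃)))
      (by rw [hr0, add_zero, ← C.redDiv_add A T, C.finrank_redW A T n23 s23,
        C.finrank_redW A T hD₂ s2, c2])
    rwa [hr0, add_zero] at this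
  have kB2inr : ∀ i, C.mulL (ResidueField A) s (redA A w₂) (redA A (z i)) ∈
      C.W (ResidueField A) s (C.redDiv A T D₂) := fun i => by
    have := kB2.mem (Sum.inr i)
    rw [Sum.elim_inr, C.redA_mulA A] at this
    exact this
  have kB12 : IsBas (C.W (ResidueField A) r (C.redDiv A T (D₁ + D₂)))
      (Sum.elim (fun i => redA A (u12 i)) fun i =>
        redA A (C.mulA A (r := r) w₁ (C.mulA A (r := s) w₂ (z i)))) := by
    simp only [C.redA_mulA A]
    have := C.isBas_step (ResidueField A) h2 (D := C.redDiv A T D₂)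
      (U := fun i => redA A (u2 i)) (by rwa [← C.redDiv_add A T])
      (z := fun i => C.mulL (ResidueField A) s (redA A w₂) (redA A (z i)))
      (fun i => kB2inr i)
      (by simpa only [C.redA_mulA A] using kB2.li) hwb (U' := fun i => redA A (u12 i))
      (by rwa [← C.redDiv_add A T, ← C.redDiv_add A T])
      (C.W_mono (le_add_of_nonneg_right (C.redDiv_nonneg A T hD₃)))
      (by rw [← C.redDiv_add A T, ← C.redDiv_add A T, C.finrank_redW A T n123 r123,
        C.finrank_redW A T n12 r12, c12])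
    rwa [← C.redDiv_add A T] at this
  -- integral complements
  let z0 : Fin d₃ → C.Idx q → L := fun i => cA A (z i)
  let z1 : Fin d₃ → C.Idx s → L := fun i => C.mulL L s (cA A w₁) (z0 i)
  let z2 : Fin d₃ → C.Idx s → L := fun i => C.mulL L s (cA A w₂) (z0 i)
  let z12 : Fin d₃ → C.Idx r → L := fun i => C.mulL L r (cA A w₁) (z2 i)
  have hz1W : ∀ i, z1 i ∈ C.W L s D₁ := fun i => by
    simpa using C.mulL_mem L h1 hw₁ (hzW i)
  have hz2W : ∀ i, z2 i ∈ C.W L s D₂ := fun i => by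
    simpa using C.mulL_mem L h1 hw₂ (hzW i)
  have hz12W : ∀ i, z12 i ∈ C.W L r (D₁ + D₂) := fun i => C.mulL_mem L h2 hw₁ (hz2W i)
  obtain ⟨bC, lC⟩ := C.isBas_cA A pq hCz.li (fun i => l0 (huC.mem i)) hzW
    (by rw [huC.card, c0])
  obtain ⟨b1, l1'⟩ := C.isBas_cA A ps kB1.li (fun i => l1 (hu1.mem i))
    (fun i => by rw [C.cA_mulA A]; exact hz1W i) (by rw [hu1.card, c1])
  obtain ⟨b2, l2'⟩ := C.isBas_cA A ps kB2.li (fun i => l2 (hu2.mem i))
    (fun i => by rw [C.cA_mulA A]; exact hz2W i) (by rw [hu2.card, c2])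
  obtain ⟨b12, l12'⟩ := C.isBas_cA A hr kB12.li (fun i => l12 (hu12.mem i))
    (fun i => by rw [C.cA_mulA A, C.cA_mulA A]; exact hz12W i) (by rw [hu12.card, c12])
  simp only [C.cA_mulA A] at b1 l1' b2 l2' b12 l12'
  -- congruences
  have mapq : ∀ {a : C.Idx p → L} {D : Divisor L (C.curve L)}, a ∈ C.W L p D →
      ∀ y ∈ C.W L q D₃, C.mulL L s a y ∈ C.W L s (D + D₃) :=
    fun ha y hy => C.mulL_mem L h1 ha hy
  have maps : ∀ {a : C.Idx p → L} {D E : Divisor L (C.curve L)}, a ∈ C.W L p D →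
      ∀ y ∈ C.W L s (E + D₃), C.mulL L r a y ∈ C.W L r (D + E + D₃) :=
    fun ha y hy => by rw [add_assoc]; exact C.mulL_mem L h2 ha hy
  obtain ⟨Q, hQ⟩ := exists_cong huC.mem bC v hv
  obtain ⟨S, hS⟩ := exists_cong hu1.mem b1 (fun i => C.mulL L s w (z0 i))
    (fun i => by simpa using C.mulL_mem L h1 hw.2.1 (hzW i))
  obtain ⟨S', hS'⟩ := exists_cong hu2.mem b2 (fun i => C.mulL L s w' (z0 i))
    (fun i => by simpa using C.mulL_mem L h1 hw'.2.1 (hzW i))
  have q1 : Cong (C.W L s (D₁ + D₃)) (Q * S) (fun i => C.mulL L s w (v i)) z1 :=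
    (hQ.map (C.mulL L s w) (mapq hw.2.1)).trans hS
  have q2 : Cong (C.W L s (D₂ + D₃)) (Q * S') (fun i => C.mulL L s w' (v i)) z2 :=
    (hQ.map (C.mulL L s w') (mapq hw'.2.1)).trans hS'
  have q12 : Cong (C.W L r (D₁ + D₂ + D₃)) (Q * S * S')
      (fun i => C.mulL L r w' (C.mulL L s w (v i))) z12 := by
    refine Cong.trans (z' := fun i => C.mulL L r w' (z1 i)) ?_ ?_
    · exact q1.map (C.mulL L r w') fun y hy => by
        rw [add_comm D₁ D₂]; exact maps hw'.2.1 y hy
    · have := hS'.map (C.mulL L r (cA A w₁)) (P' := C.W L r (D₁ + D₂ + D₃)) (maps hw₁)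
      intro i
      simp only [z1, C.mulL_comm L h1.le h1.le h2.le h2.le (cA A w₁) w']
      exact this i
  rw [C.lev_elim A hu12 hM12 eu12 q12 l12', C.lev_elim A huC hMC eC hQ lC, C.lev_elim A hu1 hM1 eu1 q1 l1',
    C.lev_elim A hu2 hM2 eu2 q2 l2', Matrix.det_mul, Matrix.det_mul, Matrix.det_mul, map_mul, map_mul,
    map_mul]
  ac_rfl

end CurveData

end Fermat.Agent.Row27

end
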