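import Fermat.Agent.Row27.Cube.Cube

/-!
# The parallelogram law for the symmetrised lattice classes

`hsym b x` is `lval b D + lval b D' - k • phiv (D + D')` for effective `D`, `D'` of degree `n`
in the classes `x`, `-x`; it does not depend on them. The sum of the levels `lh`, `lh'` satisfies
the parallelogram law exactly.
-/

set_option autoImplicit false

noncomputable section

open AlgebraicCurve Module IsLocalRing
open scoped Fermat.Agent.Reduction

namespace Fermat.Agent.Row27

universe u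

variable {K : Type u} [Field K] {L : Type u} [Field L] [Algebra K L] [IsAlgClosed L]

namespace CurveData

variable (C : CurveData K) (T : SpecTheory C)

/-- An effective representative of degree `n`. -/
def IsRep (x : Pic0 L (C.curve L)) (D : Divisor L (C.curve L)) : Prop :=
  0 ≤ D ∧ Divisor.degree D = C.n ∧ C.cls L D = x

theorem exists_fun_of_cls {p : ℕ} {X : Divisor L (C.curve L)} (hX0 : 0 ≤ X)
    (hX : Divisor.degree X = p) (hc : C.cls L X = 0) : ∃ x ∈ C.W L p X, x ≠ 0 := by
  obtain ⟨f, hf, hord⟩ := (QuotientAddGroup.eq_zero_iff _).mp hc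
  have hord : ∀ v, (X - C.binf L (Divisor.degree X)) v = v.ord f := hord
  rw [hX] at hord
  have hmem : f ∈ riemannRochSpace (C.binf L p - X) := by
    rw [MWJ0.mem_Lsp_of_ne_zero hf]
    intro v
    have h := hord v
    simp only [Finsupp.sub_apply] at h ⊢
    omega
  obtain ⟨x, hx, rfl⟩ := C.exists_eq_realF L hX0 hmem
  exact ⟨x, hx, fun e => hf (by rw [e, map_zero])⟩

theorem exists_isRep (x : Pic0 L (C.curve L)) : ∃ D, C.IsRep x D := by
  obtain ⟨⟨D₀, hD₀⟩, rfl⟩ := Pic0.mk_surjective x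
  rw [Divisor.mem_degZero] at hD₀
  set E := D₀ + C.binf L C.n with hE
  have hdeg : Divisor.degree E = C.n := by
    rw [hE, map_add, hD₀, zero_add, binf, (C.rr L).degree_single]
  have hne : riemannRochSpace E ≠ ⊥ := fun e => by
    have := (C.rr L).dim_eq E (by rw [hdeg, C.rr_g]; simp only [n]; omega)
    rw [e, finrank_bot, hdeg, C.rr_g] at this
    simp only [n] at this
    omega
  obtain ⟨f, hf, hf0⟩ := (Submodule.ne_bot_iff _).mp hne
  obtain ⟨h1, h2⟩ := (C.rr L).section_divisor hf0 hf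
  rw [hdeg] at h2
  refine ⟨_, h1, h2, ?_⟩
  show Pic0.mk _ = Pic0.mk ⟨D₀, _⟩
  unfold Pic0.mk
  refine (QuotientAddGroup.eq_iff_sub_mem (N := (Divisor.principal (K := L) (F := C.curve L)).addSubgroupOf _)).mpr ?_
  show (C.rr L).divisor hf0 + E - C.binf L (Divisor.degree ((C.rr L).divisor hf0 + E)) - D₀ ∈ Divisor.principal (K := L) (F := C.curve L)
  rw [h2, hE, show (C.rr L).divisor hf0 + (D₀ + C.binf L C.n) - C.binf L (C.n : ℤ) - D₀ =
    (C.rr L).divisor hf0 by abel]
  exact (C.rr L).divisor_mem_principal hf0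

variable (L) in
/-- `n · ∞` represents `0`. -/
theorem isRep_zero : C.IsRep (0 : Pic0 L (C.curve L)) (C.binf L C.n) := by
  refine ⟨Finsupp.single_nonneg.mpr (Int.natCast_nonneg _), (C.rr L).degree_single _ _, ?_⟩
  refine (congrArg Pic0.mk (Subtype.ext ?_)).trans Pic0.mk_zero
  show C.binf L C.n - C.binf L (Divisor.degree (C.binf L C.n)) = 0
  rw [binf, binf, (C.rr L).degree_single, sub_self]

variable (L) in
theorem realF_one_mem (p : ℕ) :
    (fun i => algebraMap K L (C.one p i)) ∈ C.W L p (C.binf L p) := by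
  rw [mem_W, C.realF_one, sub_self, MWJ0.mem_Lsp_of_ne_zero one_ne_zero]
  intro v
  simp [Place.ord_one]

variable (L) in
/-- The constant function has content one. -/
theorem phiv_binf (p : ℕ) : C.phiv L p (C.binf L p) = 0 := by
  set x : C.Idx p → L := fun i => algebraMap K L (C.one p i) with hx
  have hx0 : x ≠ 0 := fun e => by
    have := C.realF_one L p
    rw [← hx, e, map_zero] at this
    exact zero_ne_one this
  have hdeg : Divisor.degree (C.binf L (p : ℤ)) = p := (C.rr L).degree_single _ _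
  rw [← C.vcl_content hdeg (C.realF_one_mem L p) hx0]
  obtain ⟨i, hi⟩ := Function.ne_iff.mp hx0
  have := C.nonempty_of_ne_zero hx0
  have h1 : VNe K fun A : ValuationSubring L => (1 : A.ValueGroup) := fun A _ => one_ne_zero
  have e : vcl K (fun A : ValuationSubring L => (1 : A.ValueGroup)) = 0 := by
    have := vcl_pow h1 0
    rw [zero_nsmul] at this
    exact (vcl_congr fun A _ => (pow_zero _).symm).trans this
  rw [← e]
  refine vcl_congr fun A hA => ?_
  rw [C.content_eq A hx0]
  refine le_antisymm (vmax_le_iff.mpr fun k => hA.valuation_le _) ?_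
  refine le_trans ?_ (le_vmax A x i)
  have hc : C.one p i ≠ 0 := fun e0 => hi (by rw [hx]; simp [e0])
  have h2 := hA.valuation_le (C.one p i)⁻¹
  rw [map_inv₀, map_inv₀, inv_le_one₀ (zero_lt_iff.mpr ((Valuation.ne_zero_iff _).mpr
    ((map_ne_zero _).mpr hc)))] at h2
  exact h2

variable (L) in
include T in
/-- All functions of a level form the unit lattice. -/
theorem lval_zero {b : ℕ} (hb : 2 * C.g < b) (hpool : b < C.pool) : C.lval L b 0 = 0 := by
  have hb' : 2 * (C.g : ℤ) + Divisor.degree (0 : Divisor L (C.curve L)) < b := by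
    rw [map_zero]; omega
  have htop : C.W L b 0 = ⊤ := eq_top_iff.mpr fun x _ => C.mem_W_zero L x
  have hU : IsBas (C.W L b 0) (fun i : C.Idx b => Pi.single (M := fun _ => L) i (1 : L)) := by
    refine ⟨fun i => C.mem_W_zero L _, ?_, ?_⟩
    · rw [show (fun i : C.Idx b => Pi.single (M := fun _ => L) i (1 : L)) =
          fun i => Pi.basisFun L (C.Idx b) i from funext fun i => by simp]
      exact (Pi.basisFun L (C.Idx b)).linearIndependent
    · rw [htop, finrank_top, Module.finrank_pi]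
  rw [← C.vcl_lev T le_rfl hb' hpool hU]
  have h1 : VNe K fun A : ValuationSubring L => (1 : A.ValueGroup) := fun A _ => one_ne_zero
  have e : vcl K (fun A : ValuationSubring L => (1 : A.ValueGroup)) = 0 := by
    have := vcl_pow h1 0
    rw [zero_nsmul] at this
    exact (vcl_congr fun A _ => (pow_zero _).symm).trans this
  rw [← e]
  refine vcl_congr fun A hA => ?_
  have : Fact (TrivOn K A) := ⟨hA⟩
  have e1 : (fun i : C.Idx b => Pi.single (M := fun _ => L) i (1 : L)) =
      fun i => cA A (Pi.single (M := fun _ => A) i 1) := by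
    funext i k
    rcases eq_or_ne k i with rfl | h
    · simp [cA]
    · simp [cA, h]
  rw [e1]
  refine C.lev_cA_eq_one A hpool ?_
  have e2 : (fun i : C.Idx b => redA A (Pi.single (M := fun _ => A) i 1)) =
      fun i => Pi.basisFun (ResidueField A) (C.Idx b) i := by
    funext i k
    rcases eq_or_ne k i with rfl | h
    · simp [redA]
    · simp [redA, h]
  rw [e2]
  exact (Pi.basisFun _ _).linearIndependent

/-- The symmetrised class attached to a pair of representatives. -/
def hpair (b : ℕ) (D D' : Divisor L (C.curve L)) : VCls K L :=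
  C.lval L b D + C.lval L b D' - C.nW b • C.phiv L (C.n + C.n) (D + D')

/-- The symmetrised class of a class. -/
def hsym (b : ℕ) (x : Pic0 L (C.curve L)) : VCls K L :=
  C.hpair b (C.exists_isRep x).choose (C.exists_isRep (-x)).choose

variable {C}

theorem IsRep.fun_pair {x y : Pic0 L (C.curve L)} {D D' : Divisor L (C.curve L)}
    (hD : C.IsRep x D) (hD' : C.IsRep y D') (h : x + y = 0) :
    0 ≤ D + D' ∧ Divisor.degree (D + D') = ((C.n + C.n : ℕ) : ℤ) ∧
      ∃ f ∈ C.W L (C.n + C.n) (D + D'), f ≠ 0 := by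
  have h0 := add_nonneg hD.1 hD'.1
  have h1 : Divisor.degree (D + D') = ((C.n + C.n : ℕ) : ℤ) := by
    rw [map_add, hD.2.1, hD'.2.1]; push_cast; ring
  exact ⟨h0, h1, C.exists_fun_of_cls h0 h1 (by rw [map_add, hD.2.2, hD'.2.2, h])⟩

theorem IsRep.fun_triple {x y z : Pic0 L (C.curve L)} {D E F : Divisor L (C.curve L)}
    (hD : C.IsRep x D) (hE : C.IsRep y E) (hF : C.IsRep z F) (h : x + y + z = 0) :
    0 ≤ D + E + F ∧ Divisor.degree (D + E + F) = ((C.n + C.n + C.n : ℕ) : ℤ) ∧
      ∃ f ∈ C.W L (C.n + C.n + C.n) (D + E + F), f ≠ 0 := by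
  have h0 := add_nonneg (add_nonneg hD.1 hE.1) hF.1
  have h1 : Divisor.degree (D + E + F) = ((C.n + C.n + C.n : ℕ) : ℤ) := by
    simp only [map_add, hD.2.1, hE.2.1, hF.2.1, Nat.cast_add]
  exact ⟨h0, h1, C.exists_fun_of_cls h0 h1 (by simp only [map_add, hD.2.2, hE.2.2, hF.2.2, h])⟩

variable (C)

include T in
/-- The symmetrised class does not depend on the representatives. -/
theorem hsym_eq {b : ℕ} (hb : 2 * C.g + C.n < b) (hpool : C.n + C.n + b < C.pool)
    {x : Pic0 L (C.curve L)} {D D' : Divisor L (C.curve L)} (hD : C.IsRep x D)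
    (hD' : C.IsRep (-x) D') : C.hsym b x = C.hpair b D D' := by
  have hE := (C.exists_isRep x).choose_spec
  have hE' := (C.exists_isRep (-x)).choose_spec
  unfold hsym
  set E := (C.exists_isRep x).choose
  set E' := (C.exists_isRep (-x)).choose
  obtain ⟨p1, p2, p3⟩ := hD.fun_pair hE' (add_neg_cancel x)
  obtain ⟨q1, q2, q3⟩ := hE.fun_pair hE' (add_neg_cancel x)
  obtain ⟨r1, r2, r3⟩ := hD.fun_pair hD' (add_neg_cancel x)
  have a1 := C.lval_shift T (d := C.n) (b := b) rfl hpool hD.1 hD.2.1 hb q1 q2 q3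
  have a2 := C.lval_shift T (d := C.n) (b := b) rfl hpool hE.1 hE.2.1 hb p1 p2 p3
  have a3 := C.lval_shift T (d := C.n) (b := b) rfl hpool hD'.1 hD'.2.1 hb p1 p2 p3
  have a4 := C.lval_shift T (d := C.n) (b := b) rfl hpool hE'.1 hE'.2.1 hb r1 r2 r3
  rw [show D + (E + E') = E + (D + E') by abel, a2] at a1
  rw [show D' + (D + E') = E' + (D + D') by abel, a4] at a3
  rw [hpair, hpair]
  linear_combination (norm := module) a1 + a3

include T in
theorem hsym_neg {b : ℕ} (hb : 2 * C.g + C.n < b) (hpool : C.n + C.n + b < C.pool)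
    (x : Pic0 L (C.curve L)) : C.hsym b (-x) = C.hsym b x := by
  have h1 := (C.exists_isRep x).choose_spec
  have h2 := (C.exists_isRep (-x)).choose_spec
  rw [C.hsym_eq T hb hpool h2 (by rwa [neg_neg])]
  unfold hsym hpair
  rw [add_comm (C.exists_isRep (-x)).choose]
  abel

variable (L) in
include T in
theorem hsym_zero {b : ℕ} (hb : 2 * C.g + C.n < b) (hpool : C.n + C.n + b < C.pool) :
    C.hsym b (0 : Pic0 L (C.curve L)) = 0 := by
  have h := C.isRep_zero L
  rw [C.hsym_eq T hb hpool h (by rwa [neg_zero]), hpair]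
  obtain ⟨b', hb'⟩ := Nat.exists_eq_add_of_le (show C.n ≤ b by omega)
  have a := C.lval_shift T (d := 0) (b := b') hb'.symm (by omega) le_rfl (map_zero _) (by omega)
    h.1 h.2.1 ⟨_, C.realF_one_mem L C.n, fun e => by
      have := C.realF_one L C.n
      rw [e, map_zero] at this
      exact zero_ne_one this⟩
  rw [zero_add, C.phiv_binf L, C.lval_zero L T (b := b') (by omega) (by omega)] at a
  rw [a]
  have e : C.phiv L (C.n + C.n) (C.binf L C.n + C.binf L C.n) = 0 := by
    rw [C.binf_add L rfl, C.phiv_binf L]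
  rw [e]
  simp

include T in
/-- Sums of two representatives compute the class of the sum. -/
theorem lval_sum {b b' : ℕ} (hb : C.n + b' = b) (hb' : 2 * C.g + C.n < b')
    (hpool : C.n + C.n + b < C.pool) {x y : Pic0 L (C.curve L)} {X X' Y Y' : Divisor L (C.curve L)}
    (hX : C.IsRep x X) (hX' : C.IsRep (-x) X') (hY : C.IsRep y Y) (hY' : C.IsRep (-y) Y') :
    C.lval L b (X + Y) + C.lval L b (X' + Y') =
      C.nW b' • C.phiv L (C.n + C.n) (X + X') + C.nW b' • C.phiv L (C.n + C.n) (Y + Y')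
        + C.hsym b' (x + y) := by
  obtain ⟨Z, hZ⟩ := C.exists_isRep (x + y)
  obtain ⟨Z', hZ'⟩ := C.exists_isRep (-(x + y))
  obtain ⟨zz1, zz2, zz3⟩ := hZ.fun_pair hZ' (add_neg_cancel _)
  obtain ⟨xx1, xx2, xx3⟩ := hX.fun_pair hX' (add_neg_cancel _)
  obtain ⟨yy1, yy2, yy3⟩ := hY.fun_pair hY' (add_neg_cancel _)
  obtain ⟨t1, t2, t3⟩ := hX.fun_triple hY hZ' (by abel)
  obtain ⟨u1, u2, u3⟩ := hX'.fun_triple hY' hZ (by abel)
  have dXY : Divisor.degree (X + Y) = ((C.n + C.n : ℕ) : ℤ) := by
    rw [map_add, hX.2.1, hY.2.1]; push_cast; ring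
  have dXY' : Divisor.degree (X' + Y') = ((C.n + C.n : ℕ) : ℤ) := by
    rw [map_add, hX'.2.1, hY'.2.1]; push_cast; ring
  have s1 := C.lval_shift T (d := C.n + C.n) (b := b) (r := C.n + C.n + b) rfl hpool
    (add_nonneg hX.1 hY.1) dXY (by omega) zz1 zz2 zz3
  have s2 := C.lval_shift T (d := C.n + C.n) (b := b) (r := C.n + C.n + b) rfl hpool
    (add_nonneg hX'.1 hY'.1) dXY' (by omega) zz1 zz2 zz3
  have s3 := C.lval_shift T (d := C.n) (b := b') (r := C.n + C.n + b) (by omega) hpool
    hZ.1 hZ.2.1 hb' t1 t2 t3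
  have s4 := C.lval_shift T (d := C.n) (b := b') (r := C.n + C.n + b) (by omega) hpool
    hZ'.1 hZ'.2.1 hb' u1 u2 u3
  rw [show X + Y + (Z + Z') = Z + (X + Y + Z') by abel, s3,
    show b + 1 - C.g - (C.n + C.n) = C.nW b' by simp only [nW]; omega] at s1
  rw [show X' + Y' + (Z + Z') = Z' + (X' + Y' + Z) by abel, s4,
    show b + 1 - C.g - (C.n + C.n) = C.nW b' by simp only [nW]; omega] at s2
  have g1 := C.phiv_add (r := C.n + C.n + C.n + (C.n + C.n + C.n)) rfl t2 u2 t3 u3
  have g2 := C.phiv_add (r := C.n + C.n + (C.n + C.n)) rfl xx2 yy2 xx3 yy3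
  have g3 := C.phiv_add (r := C.n + C.n + C.n + (C.n + C.n + C.n))
    (p := C.n + C.n + (C.n + C.n)) (q := C.n + C.n) (by omega)
    (X := X + X' + (Y + Y')) (Y := Z + Z')
    (by rw [map_add, xx2, yy2, ← Nat.cast_add]) zz2
    (C.exists_fun_of_cls (add_nonneg xx1 yy1) (by rw [map_add, xx2, yy2, ← Nat.cast_add])
      (by simp only [map_add, hX.2.2, hX'.2.2, hY.2.2, hY'.2.2]; abel)) zz3
  rw [show X + Y + Z' + (X' + Y' + Z) = X + X' + (Y + Y') + (Z + Z') by abel, g3, g2] at g1
  have g := congrArg (fun z => C.nW b' • z) g1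
  rw [show C.nW b' • (C.phiv L (C.n + C.n + C.n) (X + Y + Z') +
      C.phiv L (C.n + C.n + C.n) (X' + Y' + Z)) = C.nW b' • C.phiv L (C.n + C.n + C.n) (X + Y + Z') +
      C.nW b' • C.phiv L (C.n + C.n + C.n) (X' + Y' + Z) from nsmul_add _ _ _] at g
  rw [C.hsym_eq T hb' (by omega) hZ hZ', hpair]
  linear_combination (norm := module) -s1 - s2 - g

include T in
/-- The relation coming from the theorem of the cube. -/
theorem hsym_core (x y : Pic0 L (C.curve L)) :
    C.hsym C.lh (x + y) + C.hsym C.lh' (x - y) =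
      C.hsym (C.l3 - (C.n + C.n)) x + C.hsym C.l2 x + C.hsym C.l2 y + C.hsym C.l1 y := by
  obtain ⟨X, hX⟩ := C.exists_isRep x
  obtain ⟨X', hX'⟩ := C.exists_isRep (-x)
  obtain ⟨Y, hY⟩ := C.exists_isRep y
  obtain ⟨Y', hY'⟩ := C.exists_isRep (-y)
  obtain ⟨yy1, yy2, yy3⟩ := hY.fun_pair hY' (add_neg_cancel _)
  have hla : C.la + C.l1 = C.l2 := rfl
  have hl2 : C.la + C.l2 = C.l3 := rfl
  have c1 := C.lval_cube T (d₁ := C.n) (d₂ := C.n) (d₃ := C.n) hla hl2
    (by simp only [pool, l3, l2, l1, la]; omega) hX.1 hY.1 hY'.1 hX.2.1 hY.2.1 hY'.2.1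
    (by simp only [la, n]; omega) (by simp only [la, n]; omega) (by simp only [l1, la, n]; omega)
  have c2 := C.lval_cube T (d₁ := C.n) (d₂ := C.n) (d₃ := C.n) hla hl2
    (by simp only [pool, l3, l2, l1, la]; omega) hX'.1 hY'.1 hY.1 hX'.2.1 hY'.2.1 hY.2.1
    (by simp only [la, n]; omega) (by simp only [la, n]; omega) (by simp only [l1, la, n]; omega)
  have hb1 : C.n + C.n + (C.l3 - (C.n + C.n)) = C.l3 := by simp only [l3, l2, l1, la, n]; omega
  have hb0 : C.n + C.n + (C.l2 - (C.n + C.n)) = C.l2 := by simp only [l2, l1, la, n]; omega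
  have s1 := C.lval_shift T hb1 (by simp only [pool, l3, l2, l1, la]; omega) hX.1 hX.2.1
    (by simp only [l3, l2, l1, la, n]; omega) yy1 yy2 yy3
  have s2 := C.lval_shift T hb1 (by simp only [pool, l3, l2, l1, la]; omega) hX'.1 hX'.2.1
    (by simp only [l3, l2, l1, la, n]; omega) yy1 yy2 yy3
  have s0 := C.lval_shift T (d := 0) hb0 (by simp only [pool, l2, l1, la]; omega) le_rfl
    (map_zero _) (by simp only [l2, l1, la, n]; omega) yy1 yy2 yy3
  rw [zero_add, C.lval_zero L T (by simp only [l2, l1, la, n]; omega)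
    (by simp only [pool, l2, l1, la, n]; omega), add_zero] at s0
  rw [C.lval_zero L T (b := C.l1) (by simp only [l1, la]; omega)
    (by simp only [pool, l1, la]; omega), add_zero, add_assoc X Y Y'] at c1
  rw [C.lval_zero L T (b := C.l1) (by simp only [l1, la]; omega)
    (by simp only [pool, l1, la]; omega), add_zero, add_assoc X' Y' Y,
    add_comm Y' Y] at c2
  have t1 := C.lval_sum T (b := C.l3) (b' := C.lh) (by simp only [lh, l3, l2, l1, la, n]; omega)
    (by simp only [lh, l3, l2, l1, la, n]; omega)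
    (by simp only [pool, l3, l2, l1, la, n]; omega) hX hX' hY hY'
  have hY'' : C.IsRep (-(-y)) Y := by rwa [neg_neg]
  have t2 := C.lval_sum T (b := C.l2) (b' := C.lh') (by simp only [lh', l2, l1, la, n]; omega)
    (by simp only [lh', l2, l1, la, n]; omega)
    (by simp only [pool, l2, l1, la, n]; omega) hX hX' hY' hY''
  rw [← sub_eq_add_neg, add_comm Y' Y] at t2
  rw [C.hsym_eq T (b := C.l3 - (C.n + C.n)) (by simp only [l3, l2, l1, la, n]; omega)
      (by simp only [pool, l3, l2, l1, la, n]; omega) hX hX',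
    C.hsym_eq T (b := C.l2) (x := x) (by simp only [l2, l1, la, n]; omega)
      (by simp only [pool, l2, l1, la, n]; omega) hX hX',
    C.hsym_eq T (b := C.l2) (x := y) (by simp only [l2, l1, la, n]; omega)
      (by simp only [pool, l2, l1, la, n]; omega) hY hY',
    C.hsym_eq T (b := C.l1) (x := y) (by simp only [l1, la, n]; omega)
      (by simp only [pool, l1, la, n]; omega) hY hY']
  simp only [hpair]
  set A := C.phiv L (C.n + C.n) (X + X') with hA
  set B := C.phiv L (C.n + C.n) (Y + Y') with hB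
  have k1 : C.l3 - (C.n + C.n) + 1 - C.g - C.n = C.nW (C.l3 - (C.n + C.n)) := rfl
  have ex : C.nW C.lh • A + C.nW C.lh' • A =
      C.nW (C.l3 - (C.n + C.n)) • A + C.nW C.l2 • A := by
    rw [← add_nsmul, ← add_nsmul]
    congr 1
    simp only [nW, lh, lh', l3, l2, l1, la, n]; omega
  have ey : C.nW C.lh • B + C.nW C.lh' • B
        + (2 * (C.l2 - (C.n + C.n) + 1 - C.g - 0)) • B =
      (2 * C.nW (C.l3 - (C.n + C.n))) • B + C.nW C.l2 • B + C.nW C.l1 • B := by
    rw [← add_nsmul, ← add_nsmul, ← add_nsmul, ← add_nsmul]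
    congr 1
    simp only [nW, lh, lh', l3, l2, l1, la, n]; omega
  rw [mul_nsmul', mul_nsmul'] at ey
  linear_combination (norm := module) c1 + c2 - t1 - t2 + s1 + s2 - (2 : ℤ) • s0 - ex - ey

/-- The class of the quadratic form. -/
def hquad (x : Pic0 L (C.curve L)) : VCls K L := C.hsym C.lh x + C.hsym C.lh' x

include T in
/-- **The parallelogram law.** -/
theorem hquad_parallelogram (x y : Pic0 L (C.curve L)) :
    C.hquad (x + y) + C.hquad (x - y) = 2 • C.hquad x + 2 • C.hquad y := by
  have hneg : ∀ b, 2 * C.g + C.n < b → C.n + C.n + b < C.pool → ∀ z : Pic0 L (C.curve L),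
      C.hsym b (-z) = C.hsym b z := fun b h h' z => C.hsym_neg T h h' z
  have a1 := C.hsym_core T x y
  have a2 := C.hsym_core T x (-y)
  have a3 := C.hsym_core T x 0
  have a4 := C.hsym_core T 0 y
  rw [hneg C.l2 (by simp only [l2, l1, la, n]; omega)
      (by simp only [pool, l2, l1, la, n]; omega),
    hneg C.l1 (by simp only [l1, la, n]; omega) (by simp only [pool, l1, la, n]; omega),
    sub_neg_eq_add, ← sub_eq_add_neg] at a2
  rw [add_zero, sub_zero, C.hsym_zero L T (b := C.l2) (by simp only [l2, l1, la, n]; omega)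
      (by simp only [pool, l2, l1, la, n]; omega),
    C.hsym_zero L T (b := C.l1) (by simp only [l1, la, n]; omega)
      (by simp only [pool, l1, la, n]; omega)] at a3
  rw [zero_add, zero_sub, hneg C.lh' (by simp only [lh', l2, l1, la, n]; omega)
      (by simp only [pool, lh', l2, l1, la, n]; omega),
    C.hsym_zero L T (b := C.l3 - (C.n + C.n)) (by simp only [l3, l2, l1, la, n]; omega)
      (by simp only [pool, l3, l2, l1, la, n]; omega),
    C.hsym_zero L T (b := C.l2) (by simp only [l2, l1, la, n]; omega)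
      (by simp only [pool, l2, l1, la, n]; omega)] at a4
  simp only [hquad]
  linear_combination (norm := module) a1 + a2 - (2 : ℤ) • a3 - (2 : ℤ) • a4

include T in
/-- A family of values in the class `hquad z` for each `z` satisfies the parallelogram law. -/
theorem exists_parallelogram_of_vcl
    (F : Pic0 L (C.curve L) → ∀ A : ValuationSubring L, A.ValueGroup) (hF : ∀ z, VNe K (F z))
    (h : ∀ z, vcl K (F z) = C.hquad z) (x y : Pic0 L (C.curve L)) :
    ∃ lam : L, lam ≠ 0 ∧ ∀ A : ValuationSubring L, TrivOn K A →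
      F (x + y) A * F (x - y) A = A.valuation lam * (F x A * F y A) ^ 2 := by
  refine exists_scale_of_vcl_eq ((hF _).mul (hF _)) (((hF x).mul (hF y)).pow 2) ?_
  rw [vcl_mul (hF _) (hF _), vcl_pow ((hF x).mul (hF y)), vcl_mul (hF x) (hF y), h, h, h, h,
    C.hquad_parallelogram T, nsmul_add]

include T in
/-- Recognising `hsym`: the product of the minors of two bases divided by the content. -/
theorem vcl_eq_hsym {b : ℕ} (hb : 2 * C.g + C.n < b) (hpool : C.n + C.n + b < C.pool)
    {x : Pic0 L (C.curve L)} {D D' : Divisor L (C.curve L)} (hD : C.IsRep x D)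
    (hD' : C.IsRep (-x) D') {ν ν' : Type*} [Fintype ν] [DecidableEq ν] [Fintype ν']
    [DecidableEq ν'] {U : ν → C.Idx b → L} {U' : ν' → C.Idx b → L}
    (hU : IsBas (C.W L b D) U) (hU' : IsBas (C.W L b D') U') {f : C.Idx (C.n + C.n) → L}
    (hf : f ∈ C.W L (C.n + C.n) (D + D')) (hf0 : f ≠ 0)
    {F : ∀ A : ValuationSubring L, A.ValueGroup} (hF : VNe K F)
    (h : ∀ A : ValuationSubring L, TrivOn K A → F A * C.content A f ^ C.nW b =
      lev A (C.poolV L b) U * lev A (C.poolV L b) U') : vcl K F = C.hsym b x := by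
  have d1 : 2 * (C.g : ℤ) + Divisor.degree D < b := by rw [hD.2.1]; omega
  have d2 : 2 * (C.g : ℤ) + Divisor.degree D' < b := by rw [hD'.2.1]; omega
  have v1 := C.vne_lev T hD.1 d1 (by omega) hU
  have v2 := C.vne_lev T hD'.1 d2 (by omega) hU'
  have e := vcl_congr (K := K) h
  rw [vcl_mul hF ((C.vne_content hf0).pow _), vcl_pow (C.vne_content hf0), vcl_mul v1 v2,
    C.vcl_lev T hD.1 d1 (by omega) hU, C.vcl_lev T hD'.1 d2 (by omega) hU',
    C.vcl_content (hD.fun_pair hD' (add_neg_cancel x)).2.1 hf hf0] at e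
  rw [C.hsym_eq T hb hpool hD hD', hpair, ← e]
  abel

end CurveData

end Fermat.Agent.Row27

end
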