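import Fermat.Agent.Row27.Cube.Spaces
import Fermat.Agent.Reduction.Rank
import Fermat.Agent.Reduction.Instances

/-!
# Reduction of the spaces `W b D` at a valuation ring trivial on the base field
-/

set_option autoImplicit false

noncomputable section

open AlgebraicCurve Module IsLocalRing
open scoped Fermat.Agent.Reduction

namespace Fermat.Agent.Row27

universe u

variable {K : Type u} [Field K] {L : Type u} [Field L] [Algebra K L] (A : ValuationSubring L)

/-- The constants inside the valuation ring. -/
def constHom (hA : TrivOn K A) : K →+* A :=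
  (algebraMap K L).codRestrict A.toSubring hA

variable [hA : Fact (TrivOn K A)]

/-- The residue field as an extension of `K`. -/
scoped instance resAlgebra : Algebra K (ResidueField A) :=
  ((residue A).comp (constHom A hA.out)).toAlgebra

variable (K) in
/-- Reduction as a specialisation of constants. -/
def resSpec : Spec K L (ResidueField A) where
  dom := A
  trivOn := hA.out
  map := residue A
  map_algebraMap _ := rfl
  map_eq_zero x := by rw [residue_eq_zero_iff]; exact Iff.rfl

variable [IsAlgClosed L]

instance resAlgClosed : IsAlgClosed (ResidueField A) := Reduction.isAlgClosed_residueField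

namespace CurveData

variable (C : CurveData K) (T : SpecTheory C)

/-- The reduction of a divisor. -/
def redDiv (D : Divisor L (C.curve L)) : Divisor (ResidueField A) (C.curve (ResidueField A)) :=
  Finsupp.mapDomain (T.place (resSpec K A)) D

theorem redDiv_add (D E : Divisor L (C.curve L)) :
    C.redDiv A T (D + E) = C.redDiv A T D + C.redDiv A T E := Finsupp.mapDomain_add

theorem degree_redDiv (D : Divisor L (C.curve L)) :
    Divisor.degree (C.redDiv A T D) = Divisor.degree D := by
  induction D using Finsupp.induction with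
  | zero => simp [redDiv]
  | single_add v n D _ _ ih =>
    rw [redDiv_add, map_add, map_add, ih, redDiv, Finsupp.mapDomain_single,
      (C.rr _).degree_single, (C.rr _).degree_single]

theorem redDiv_nonneg {D : Divisor L (C.curve L)} (hD : 0 ≤ D) : 0 ≤ C.redDiv A T D := by
  classical
  intro v
  rw [Finsupp.coe_zero, Pi.zero_apply, redDiv, Finsupp.mapDomain, Finsupp.sum_apply]
  refine Finset.sum_nonneg fun w _ => ?_
  simp only [Finsupp.single_apply]
  split_ifs
  · exact hD w
  · exact le_rfl

theorem span_red_W {b : ℕ} {D : Divisor L (C.curve L)} (hD : 0 ≤ D)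
    (hb : 2 * (C.g : ℤ) + Divisor.degree D < b) :
    Submodule.span (ResidueField A) {y | ∃ x : C.Idx b → A, cA A x ∈ C.W L b D ∧ y = redA A x} =
      C.W (ResidueField A) b (C.redDiv A T D) :=
  T.mapSub_W (resSpec K A) D hD b hb

theorem red_mem_W {b : ℕ} {D : Divisor L (C.curve L)} (hD : 0 ≤ D)
    (hb : 2 * (C.g : ℤ) + Divisor.degree D < b) {x : C.Idx b → A} (hx : cA A x ∈ C.W L b D) :
    redA A x ∈ C.W (ResidueField A) b (C.redDiv A T D) :=
  C.span_red_W A T hD hb ▸ Submodule.subset_span ⟨x, hx, rfl⟩

theorem exists_lift {b : ℕ} {D : Divisor L (C.curve L)} (hD : 0 ≤ D)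
    (hb : 2 * (C.g : ℤ) + Divisor.degree D < b) {y : C.Idx b → ResidueField A}
    (hy : y ∈ C.W (ResidueField A) b (C.redDiv A T D)) :
    ∃ x : C.Idx b → A, cA A x ∈ C.W L b D ∧ redA A x = y := by
  rw [← C.span_red_W A T hD hb] at hy
  induction hy using Submodule.span_induction with
  | mem y hy => obtain ⟨x, hx, rfl⟩ := hy; exact ⟨x, hx, rfl⟩
  | zero => exact ⟨0, zero_mem _, funext fun i => map_zero _⟩
  | add y z _ _ hy hz =>
    obtain ⟨x, hx, rfl⟩ := hy
    obtain ⟨x', hx', rfl⟩ := hz
    exact ⟨x + x', add_mem hx hx', funext fun i => map_add _ _ _⟩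
  | smul c y _ hy =>
    obtain ⟨a, rfl⟩ := residue_surjective c
    obtain ⟨x, hx, rfl⟩ := hy
    exact ⟨fun i => a * x i, Submodule.smul_mem _ (a : L) hx,
      funext fun i => map_mul _ _ _⟩

theorem finrank_redW {b : ℕ} {D : Divisor L (C.curve L)} (hD : 0 ≤ D)
    (hb : 2 * (C.g : ℤ) + Divisor.degree D < b) :
    finrank (ResidueField A) (C.W (ResidueField A) b (C.redDiv A T D)) = finrank L (C.W L b D) := by
  have h1 := C.finrank_W_int (ResidueField A) b (C.redDiv_nonneg A T hD)
    (by rw [C.degree_redDiv A T]; omega)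
  have h2 := C.finrank_W_int L b hD hb.le
  rw [C.degree_redDiv A T] at h1
  omega

include T in
theorem exists_good {b : ℕ} {D : Divisor L (C.curve L)} (hD : 0 ≤ D)
    (hb : 2 * (C.g : ℤ) + Divisor.degree D < b) :
    ∃ u : Fin (finrank L (C.W L b D)) → C.Idx b → A, IsGood A (C.W L b D) u := by
  refine exists_isGood _ ?_
  rw [C.span_red_W A T hD hb, C.finrank_redW A T hD hb]

/-- The product of integral vectors. -/
def mulA {p q r : ℕ} (x : C.Idx p → A) (y : C.Idx q → A) : C.Idx r → A :=
  fun l => ∑ i, ∑ j, constHom A hA.out (C.sc p q r i j l) * (x i * y j)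

omit [IsAlgClosed L] in
theorem cA_mulA {p q r : ℕ} (x : C.Idx p → A) (y : C.Idx q → A) :
    cA A (C.mulA A (r := r) x y) = C.mulL L r (cA A x) (cA A y) := by
  funext l
  simp only [cA, mulA, mulL_apply, mulv, mulVec, Algebra.smul_def]
  push_cast
  rfl

omit [IsAlgClosed L] in
theorem redA_mulA {p q r : ℕ} (x : C.Idx p → A) (y : C.Idx q → A) :
    redA A (C.mulA A (r := r) x y) = C.mulL (ResidueField A) r (redA A x) (redA A y) := by
  funext l
  simp only [redA, mulA, mulL_apply, mulv, mulVec, Algebra.smul_def, map_sum, map_mul]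
  rfl

/-- The values at the rational points of an integral vector. -/
def poolA (b : ℕ) (x : C.Idx b → A) : Fin C.pool → A :=
  fun k => ∑ j, x j * constHom A hA.out (C.ev k b j)

/-- An adapted basis has a minor of valuation one. -/
theorem lev_cA_eq_one {ν : Type*} [Fintype ν] [DecidableEq ν] {b : ℕ} (hb : b < C.pool)
    {u : ν → C.Idx b → A} (h : LinearIndependent (ResidueField A) fun i => redA A (u i)) :
    lev A (C.poolV L b) (fun i => cA A (u i)) = 1 := by
  have : Nonempty (Fin C.pool) := ⟨⟨0, by omega⟩⟩
  have e : (fun i => C.poolV L b (cA A (u i))) = fun i => cA A (C.poolA A b (u i)) := by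
    funext i k
    simp only [poolV, poolA, evAt, cA, LinearMap.coe_mk, AddHom.coe_mk]
    push_cast
    rfl
  rw [lev, e]
  refine vmax_pl_eq_one ?_
  have e' : (fun i => redA A (C.poolA A b (u i))) =
      C.poolV (ResidueField A) b ∘ fun i => redA A (u i) := by
    funext i k
    simp only [poolV, poolA, evAt, redA, LinearMap.coe_mk, AddHom.coe_mk, Function.comp_apply,
      map_sum, map_mul]
    rfl
  rw [e']
  exact h.map' _ (LinearMap.ker_eq_bot.mpr (C.poolV_injective (ResidueField A) hb))

omit [Algebra K L] hA [IsAlgClosed L] in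
theorem vmax_cA_eq_one {b : ℕ} [Nonempty (C.Idx b)] {x : C.Idx b → A} (hx : redA A x ≠ 0) :
    vmax A (cA A x) = 1 := by
  obtain ⟨i, hi⟩ := Function.ne_iff.mp hx
  exact vmax_eq_one (fun k => (x k).2) (valuation_eq_one_of_residue_ne_zero hi)

end CurveData

end Fermat.Agent.Row27

end
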